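import Fermat.Prelude.Def_ModularCurve_ArithmeticGalois
import Fermat.Prelude.Def_ModularCurve_X0ModL
import Fermat.Agent.S17.FF.Defs
import Fermat.Agent.S28.Transfer
import Fermat.Agent.S28.Reduce
import Fermat.Agent.S28.DegreeJd

/-!
# S17 / A7a : `F_L = L(j(q^d) : d ∣ N)` is a function field in one variable over `L`.
-/

set_option autoImplicit false

open AlgebraicCurve ModularCurve IntermediateField Polynomial

namespace Fermat.Agent.S17

namespace IsFFAux

open Fermat.Agent.S28

variable (L : Type) [Field L] [Algebra ℚ L]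

theorem coeffEmb_qExpand_jq (d : ℕ) [NeZero d] :
    coeffEmb L (qExpand ℚ d jq) = qExpand L d (jqModC L) := by
  rw [coeffEmb, coeffMap_qExpand, ← jqModC_rat, coeffMap_jqModC]

theorem coeffEmb_algebraMap (r : ℚ) :
    coeffEmb L (algebraMap ℚ (LaurentSeries ℚ) r)
      = algebraMap L (LaurentSeries L) (algebraMap ℚ L r) := by
  rw [algebraMap_laurentSeries_eq_single, algebraMap_laurentSeries_eq_single, coeffEmb,
    coeffMap_single]

theorem coeffEmb_mem_fullC (N : ℕ) {x : LaurentSeries ℚ}
    (hx : x ∈ IntermediateField.adjoin ℚ (divisorExpansions N)) :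
    coeffEmb L x ∈ modularFunctionFieldFullC L N := by
  induction hx using IntermediateField.adjoin_induction with
  | mem x hx =>
    obtain ⟨d, hd0, hd, rfl⟩ := hx
    rw [coeffEmb_qExpand_jq]
    exact jqModCd_mem_full L N hd
  | algebraMap r =>
    rw [coeffEmb_algebraMap]
    exact IntermediateField.algebraMap_mem _ _
  | add x y hx hy ihx ihy =>
    rw [map_add]
    exact add_mem ihx ihy
  | inv x hx ih =>
    rw [map_inv₀]
    exact inv_mem ih
  | mul x y hx hy ihx ihy =>
    rw [map_mul]
    exact mul_mem ihx ihy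

/-- The base change of the rational function field is the function field over `L`. -/
theorem laurentBaseChange_eq_fullC (N : ℕ) :
    laurentBaseChange L (modularFunctionFieldFull N) = modularFunctionFieldFullC L N := by
  apply le_antisymm
  · unfold laurentBaseChange
    rw [IntermediateField.adjoin_le_iff]
    rintro _ ⟨x, hx, rfl⟩
    exact coeffEmb_mem_fullC L N hx
  · unfold modularFunctionFieldFullC
    rw [IntermediateField.adjoin_le_iff]
    rintro _ ⟨d, hd0, hd, rfl⟩
    rw [← coeffEmb_qExpand_jq]
    exact coeffEmb_mem_laurentBaseChange L (jqd_mem_full N hd)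

section Alg

omit [Algebra ℚ L]
variable {L}

/-- one step of the tower: `j(q^{ap})` is integral over any field containing `j(q^a)`. -/
theorem isIntegral_step (p a : ℕ) [Fact p.Prime] [NeZero p] [NeZero a]
    (A : Type*) [Field A] [Algebra A (LaurentSeries L)] (y : A)
    (hy : algebraMap A (LaurentSeries L) y = qExpand L a (jqModC L)) :
    IsIntegral A (qExpand L (a * p) (jqModC L)) := by
  obtain ⟨P, hmonic, hP⟩ := exists_monic_VJ_over_J p
  let g : Polynomial ℤ →+* A := Polynomial.eval₂RingHom (Int.castRingHom A) y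
  let φ : LaurentSeries ℤ →+* LaurentSeries L :=
    (qExpand L a).comp (coeffMap (Int.castRingHom L))
  refine ⟨P.map g, hmonic.map g, ?_⟩
  rw [Polynomial.eval₂_map]
  have h1 := congrArg φ hP
  rw [Polynomial.eval_map, Polynomial.hom_eval₂, map_zero] at h1
  have h2 : φ (V ℤ p (J ℤ)) = qExpand L (a * p) (jqModC L) := by
    show qExpand L a (coeffMap (Int.castRingHom L) (qExpand ℤ p (jqModC ℤ))) = _
    rw [coeffMap_qExpand, coeffMap_jqModC, qExpand_qExpand]
  have h3 : φ.comp (evAt (J ℤ)) = (algebraMap A (LaurentSeries L)).comp g := by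
    refine Polynomial.ringHom_ext (fun n => ?_) ?_
    · have e1 := eq_intCast ((φ.comp (evAt (J ℤ))).comp Polynomial.C) n
      have e2 := eq_intCast (((algebraMap A (LaurentSeries L)).comp g).comp Polynomial.C) n
      exact e1.trans e2.symm
    · show φ (evAt (J ℤ) Polynomial.X) = algebraMap A (LaurentSeries L) (g Polynomial.X)
      have e1 : evAt (J ℤ) Polynomial.X = J ℤ := by simp [evAt]
      have e2 : g Polynomial.X = y := by simp [g]
      rw [e1, e2, hy]
      show qExpand L a (coeffMap (Int.castRingHom L) (jqModC ℤ)) = _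
      rw [coeffMap_jqModC]
  rw [h2, h3] at h1
  exact h1

/-- `j(q^d)` is integral over any field containing `j`. -/
theorem isIntegral_jd (E : Type*) [Field E] [Algebra E (LaurentSeries L)] (y : E)
    (hy : algebraMap E (LaurentSeries L) y = jqModC L) (d : ℕ) :
    d ≠ 0 → IsIntegral E (jd L d) := by
  induction d using induction_on_primes with
  | zero => intro h; exact absurd rfl h
  | one =>
    intro _
    rw [jd_one, show J L = algebraMap E (LaurentSeries L) y from hy.symm]
    exact isIntegral_algebraMap
  | prime_mul p a hp ih =>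
    intro hpa
    have ha : a ≠ 0 := right_ne_zero_of_mul hpa
    have : NeZero a := ⟨ha⟩
    have : NeZero p := ⟨hp.ne_zero⟩
    have : Fact p.Prime := ⟨hp⟩
    have iha := ih ha
    have hfd : FiniteDimensional E E⟮jd L a⟯ := IntermediateField.adjoin.finiteDimensional iha
    have hint : Algebra.IsIntegral E E⟮jd L a⟯ := Algebra.IsIntegral.of_finite E _
    have hstep := isIntegral_step (L := L) p a E⟮jd L a⟯
      ⟨jd L a, IntermediateField.mem_adjoin_simple_self E _⟩ (by rw [← jd_eq]; rfl)
    have : NeZero (a * p) := ⟨Nat.mul_ne_zero ha hp.ne_zero⟩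
    rw [← jd_eq, mul_comm a p] at hstep
    exact isIntegral_trans _ hstep

end Alg

end IsFFAux

/-- a field generated by finitely many elements integral over `L(y)` is finite over `L(y)`. -/
theorem IsFFAux.finiteDimensional_of_generators {L M : Type*} [Field L] [Field M] [Algebra L M]
    (F : IntermediateField L M) (y : F) {ι : Type*} [Finite ι] (s : ι → F)
    (hgen : F ≤ IntermediateField.adjoin L (Set.range fun i => (s i : M)))
    (hint : ∀ i, IsIntegral L⟮y⟯ (s i)) : FiniteDimensional L⟮y⟯ F := by
  have hint' : ∀ x ∈ Set.range s, IsIntegral L⟮y⟯ x := by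
    rintro _ ⟨i, rfl⟩
    exact hint i
  have hfd := IntermediateField.finiteDimensional_adjoin hint'
  have htop : IntermediateField.adjoin L⟮y⟯ (Set.range s) = ⊤ := by
    rw [eq_top_iff]
    intro f _
    have hle : F ≤ ((IntermediateField.adjoin L⟮y⟯ (Set.range s)).restrictScalars L).map F.val := by
      refine hgen.trans ?_
      rw [IntermediateField.adjoin_le_iff]
      rintro _ ⟨i, rfl⟩
      have h1 : s i ∈ IntermediateField.adjoin L⟮y⟯ (Set.range s) :=
        IntermediateField.subset_adjoin _ _ ⟨i, rfl⟩
      have h2 : s i ∈ (IntermediateField.adjoin L⟮y⟯ (Set.range s)).restrictScalars L :=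
        (IntermediateField.mem_restrictScalars L).mpr h1
      exact (IntermediateField.mem_map _).mpr ⟨s i, h2, rfl⟩
    obtain ⟨t, ht, hft⟩ := (IntermediateField.mem_map _).mp (hle f.2)
    have : t = f := Subtype.ext hft
    rw [← this]
    exact (IntermediateField.mem_restrictScalars L).mp ht
  rw [htop] at hfd
  exact (IntermediateField.topEquiv (F := L⟮y⟯) (E := F)).toLinearEquiv.finiteDimensional

open IsFFAux Fermat.Agent.S28 in
/-- `L(j(q^d) : d ∣ N)` is a function field in one variable (any field `L`). -/
theorem isFF_fullC (L : Type) [Field L] (N : ℕ) [NeZero N] :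
    FF.IsFF L (modularFunctionFieldFullC L N) := by
  classical
  let y : modularFunctionFieldFullC L N := ⟨jqModC L, jqModC_mem_full L N⟩
  have hy : Transcendental L y := by
    have h := transcendental_jqModC L
    have e : algebraMap (modularFunctionFieldFullC L N) (LaurentSeries L) y = jqModC L := rfl
    rw [← e, transcendental_algebraMap_iff
      (algebraMap (modularFunctionFieldFullC L N) (LaurentSeries L)).injective] at h
    exact h
  refine ⟨y, hy, ?_⟩
  have hfinD : Finite {d : ℕ // d ∣ N} :=
    Set.Finite.subset (Set.finite_Iic N)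
      (fun d (hd : d ∣ N) => Nat.le_of_dvd (Nat.pos_of_ne_zero (NeZero.ne N)) hd)
  have hd0 : ∀ d : {d : ℕ // d ∣ N}, d.1 ≠ 0 := fun d h =>
    NeZero.ne N (Nat.eq_zero_of_zero_dvd (h ▸ d.2))
  let s : {d : ℕ // d ∣ N} → modularFunctionFieldFullC L N :=
    fun d => ⟨jd L d.1, jd_mem_full (hd0 d) d.2⟩
  refine finiteDimensional_of_generators _ y s ?_ ?_
  · rw [full_le_iff]
    intro d hd hdN
    exact IntermediateField.subset_adjoin _ _ ⟨⟨d, hdN⟩, rfl⟩
  · intro d
    have h := isIntegral_jd (L := L) L⟮y⟯ ⟨y, IntermediateField.mem_adjoin_simple_self L y⟩ rfl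
      d.1 (hd0 d)
    have e : algebraMap (modularFunctionFieldFullC L N) (LaurentSeries L) (s d) = jd L d.1 := rfl
    rw [← e, isIntegral_algebraMap_iff
      (algebraMap (modularFunctionFieldFullC L N) (LaurentSeries L)).injective] at h
    exact h

/-- A7a. -/
theorem isFF_FL' (L : Type) [Field L] [Algebra ℚ L] (N : ℕ) [NeZero N] :
    FF.IsFF L (laurentBaseChange L (modularFunctionFieldFull N)) := by
  rw [IsFFAux.laurentBaseChange_eq_fullC]
  exact isFF_fullC L N

end Fermat.Agent.S17
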