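import Mathlib
import Fermat.Prelude.Def_ModularCurve_LaurentCoeff

/-!
# S17 / A8 : the echelon trick

A finite dimensional subspace of a space of "sequences" which is stable under a family of
coordinatewise semilinear maps has a basis of fixed vectors: choose coordinates `n_1, …, n_m` such
that `x ↦ (c_{n_1} x, …, c_{n_m} x)` is an isomorphism on `V` and take the dual basis.
-/

set_option autoImplicit false

open ModularCurve

namespace Fermat.Agent.S17.Echelon

section abstract

variable {L W ι : Type*} [Field L] [AddCommGroup W] [Module L W]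

/-- the coordinates span the dual of a finite dimensional subspace -/
theorem span_coord_eq_top (c : ι → W →ₗ[L] L) (hc : ∀ x, (∀ n, c n x = 0) → x = 0)
    (V : Submodule L W) [FiniteDimensional L V] :
    Submodule.span L (Set.range fun n => (c n).comp V.subtype) = ⊤ := by
  set Φ : Submodule L (Module.Dual L V) :=
    Submodule.span L (Set.range fun n => (c n).comp V.subtype) with hΦ
  have h0 : Φ.dualCoannihilator = ⊥ := by
    rw [eq_bot_iff]
    intro x hx
    rw [Submodule.mem_dualCoannihilator] at hx
    have : (x : W) = 0 := hc x (fun n => hx _ (Submodule.subset_span ⟨n, rfl⟩))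
    simpa using this
  have h1 := Subspace.dualCoannihilator_dualAnnihilator_eq (W := Φ)
  rw [h0, Submodule.dualAnnihilator_bot] at h1
  exact h1.symm

/-- there are a basis of `V` and coordinates dual to it -/
theorem exists_dual_coord (c : ι → W →ₗ[L] L) (hc : ∀ x, (∀ n, c n x = 0) → x = 0)
    (V : Submodule L W) [FiniteDimensional L V] :
    ∃ (b : Module.Basis (Fin (Module.finrank L V)) L V) (n : Fin (Module.finrank L V) → ι),
      ∀ i j, c (n i) (b j : W) = if i = j then 1 else 0 := by
  classical
  have hs := span_coord_eq_top c hc V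
  let β := Module.Basis.ofSpan hs.ge
  have hβ : ∀ i, ∃ n, (c n).comp V.subtype = β i := fun i =>
    Module.Basis.ofSpan_subset hs.ge ⟨i, rfl⟩
  choose n hn using hβ
  have : Finite ((linearIndepOn_empty L id).extend
      (Set.empty_subset (Set.range fun n => (c n).comp V.subtype))) :=
    Module.Finite.finite_basis β
  have := Fintype.ofFinite ((linearIndepOn_empty L id).extend
      (Set.empty_subset (Set.range fun n => (c n).comp V.subtype)))
  let b0 := β.dualBasis.map (Module.evalEquiv L V).symm
  have hcard : Fintype.card ((linearIndepOn_empty L id).extend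
      (Set.empty_subset (Set.range fun n => (c n).comp V.subtype))) = Module.finrank L V :=
    (Module.finrank_eq_card_basis b0).symm
  let e := Fintype.equivFinOfCardEq hcard
  refine ⟨b0.reindex e, fun i => n (e.symm i), fun i j => ?_⟩
  have h1 : c (n (e.symm i)) ((b0.reindex e j : V) : W) = β (e.symm i) (b0 (e.symm j)) := by
    rw [← hn (e.symm i)]
    simp
  rw [h1]
  have h2 : β (e.symm i) (b0 (e.symm j)) = β.dualBasis (e.symm j) (β (e.symm i)) := by
    have : Module.evalEquiv L V (b0 (e.symm j)) = β.dualBasis (e.symm j) := by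
      simp [b0]
    rw [← this]
    simp
  rw [h2, Module.Basis.dualBasis_apply_self]
  simp

/-- **Echelon trick**, abstract form. -/
theorem exists_fixed_basis_abstract {G : Type*} (c : ι → W →ₗ[L] L)
    (hc : ∀ x, (∀ n, c n x = 0) → x = 0) (T : G → W → W) (s : G → L →+* L)
    (hT : ∀ g n x, c n (T g x) = s g (c n x)) (V : Submodule L W) [FiniteDimensional L V]
    (hV : ∀ g, ∀ f ∈ V, T g f ∈ V) :
    ∃ b : Module.Basis (Fin (Module.finrank L V)) L V, ∀ g i, T g (b i : W) = b i := by
  classical
  obtain ⟨b, n, hbn⟩ := exists_dual_coord c hc V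
  refine ⟨b, fun g j => ?_⟩
  -- an element of `V` is determined by the coordinates `n i`
  have key : ∀ x : V, (∀ i, c (n i) (x : W) = 0) → x = 0 := by
    intro x hx
    have hx' : x = ∑ j, b.repr x j • b j := (b.sum_repr x).symm
    have h0 : ∀ i, b.repr x i = 0 := by
      intro i
      have h1 := hx i
      have h2 : c (n i) ((∑ j, b.repr x j • b j : V) : W) =
          ∑ j, b.repr x j * c (n i) (b j : W) := by
        rw [Submodule.coe_sum, map_sum]
        simp
      rw [b.sum_repr] at h2
      rw [h2] at h1
      simpa [hbn] using h1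
    rw [hx']
    simp [h0]
  have hmem := hV g _ (b j).2
  have := key (⟨T g (b j : W), hmem⟩ - b j) (fun i => by
    simp only [Submodule.coe_sub, map_sub, hT, hbn]
    split_ifs <;> simp)
  have h2 : (⟨T g (b j : W), hmem⟩ : V) = b j := sub_eq_zero.mp this
  exact congrArg Subtype.val h2

end abstract

section laurent

variable {L : Type*} [Field L]

/-- the `n`-th coefficient as a linear form -/
noncomputable def coeffL (n : ℤ) : LaurentSeries L →ₗ[L] L where
  toFun x := x.coeff n
  map_add' _ _ := rfl
  map_smul' _ _ := rfl

@[simp] theorem coeffL_apply (n : ℤ) (x : LaurentSeries L) : coeffL n x = x.coeff n := rfl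

/-- **Echelon trick** for subspaces of `L((q))`. -/
theorem exists_fixed_basis_laurent (Γ : Set (L →+* L)) (V : Submodule L (LaurentSeries L))
    [FiniteDimensional L V] (hV : ∀ σ ∈ Γ, ∀ f ∈ V, coeffMap σ f ∈ V) :
    ∃ b : Module.Basis (Fin (Module.finrank L V)) L V,
      ∀ σ ∈ Γ, ∀ i, coeffMap σ (b i : LaurentSeries L) = b i := by
  obtain ⟨b, hb⟩ := exists_fixed_basis_abstract (G := Γ) (fun n : ℤ => coeffL (L := L) n)
    (fun x hx => HahnSeries.ext (funext hx)) (fun σ x => coeffMap σ.1 x) (fun σ => σ.1)
    (fun _ _ _ => rfl) V (fun σ f hf => hV σ.1 σ.2 f hf)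
  exact ⟨b, fun σ hσ i => hb ⟨σ, hσ⟩ i⟩

/-- the `n`-th coefficient as a linear form on an intermediate field -/
noncomputable def coeffF (F : IntermediateField L (LaurentSeries L)) (n : ℤ) : F →ₗ[L] L where
  toFun x := (x : LaurentSeries L).coeff n
  map_add' _ _ := rfl
  map_smul' a x := by
    rw [IntermediateField.coe_smul, Algebra.smul_def, algebraMap_laurentSeries_eq_single]
    simp

theorem coeffF_apply (F : IntermediateField L (LaurentSeries L)) (n : ℤ) (x : F) :
    coeffF F n x = (x : LaurentSeries L).coeff n := rfl

/-- **Echelon trick** for subspaces of an intermediate field of `L((q)) / L`. -/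
theorem exists_fixed_basis_intermediateField (F : IntermediateField L (LaurentSeries L))
    {G : Type*} (T : G → F → F) (s : G → L →+* L)
    (hT : ∀ g f, ((T g f : F) : LaurentSeries L) = coeffMap (s g) (f : LaurentSeries L))
    (V : Submodule L F) [FiniteDimensional L V] (hV : ∀ g, ∀ f ∈ V, T g f ∈ V) :
    ∃ b : Module.Basis (Fin (Module.finrank L V)) L V, ∀ g i, T g (b i : F) = b i :=
  exists_fixed_basis_abstract (W := F) (fun n : ℤ => coeffF F n)
    (fun x hx => Subtype.ext (HahnSeries.ext (funext fun n => by
      have := hx n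
      rw [coeffF_apply] at this
      rw [this]; rfl))) T s
    (fun g n x => by
      rw [coeffF_apply, coeffF_apply, hT]; rfl) V hV

end laurent

end Fermat.Agent.S17.Echelon
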