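import Fermat.Prelude.Def_ModularCurve_ArithmeticGalois
import Fermat.Agent.S17.FF.Bpf
import Fermat.Agent.S17.FF.MinRep
import Fermat.Agent.S17.FF.ValSubring
import Fermat.Agent.S17.FF.Val
import Fermat.Agent.S17.Curve.IsFF
import Fermat.Agent.S17.Curve.Echelon

/-!
# S17 / A7, A8 : the function field `F_L = L(j(q^d) : d ∣ N) ⊆ L((q))` for an algebraically closed field `L ⊇ ℚ`
(`L = ℚ̄` and `L = ℂ` are used), the cusp `∞`, the coefficientwise action, the echelon trick.
-/

set_option autoImplicit false

open AlgebraicCurve ModularCurve IntermediateField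

namespace Fermat.Agent.S17

open FF

variable (L : Type) [Field L] [Algebra ℚ L] (N : ℕ)

/-- `F_L`, the function field of `X₀(N)` over `L`, inside `L((q))`. -/
noncomputable abbrev FL : IntermediateField L (LaurentSeries L) := laurentBaseChange L (modularFunctionFieldFull N)

/-- the coefficientwise action of `Aut(L/ℚ)` on `F_L` -/
noncomputable abbrev gal (σ : L ≃ₐ[ℚ] L) : SemilinearAut L (FL L N) :=
  arithmeticGalois (modularFunctionFieldFull N) σ

variable {L N}

theorem coe_gal_smul (σ : L ≃ₐ[ℚ] L) (f : FL L N) :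
    ((gal L N σ • f : FL L N) : LaurentSeries L) = coeffMap (σ : L →+* L) (f : LaurentSeries L) := rfl

theorem coeff_gal_smul (σ : L ≃ₐ[ℚ] L) (f : FL L N) (n : ℤ) :
    ((gal L N σ • f : FL L N) : LaurentSeries L).coeff n = σ ((f : LaurentSeries L).coeff n) := rfl

variable (L N)
variable [NeZero N] [IsAlgClosed L] [CharZero L]

/-- A7a. `j` is transcendental and `F_L` is finite over `L(j)` (each `j(q^d)` is algebraic over `ℚ(j)`).
For `L = ℚ̄` see `S24.transcendental_jN`, `S24` finiteness; the same proofs work for every `L`;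
algebraicity of `j(q^d)` over `ℚ(j)` may be transported from `ℚ̄` (or `ℚ`) by `coeffMap`. -/
instance isFF_FL : IsFF L (FL L N) := isFF_FL' L N

omit [NeZero N] [IsAlgClosed L] in
theorem Base.order_coeffEmb_jq : (coeffEmb L jq).order = -1 := by
  have h1 : (coeffEmb L jq).coeff (-1) ≠ 0 := by simp
  have h0 : coeffEmb L jq ≠ 0 := fun h => h1 (by rw [h]; rfl)
  refine le_antisymm (HahnSeries.order_le_of_coeff_ne_zero h1) ?_
  by_contra hlt
  push Not at hlt
  have h2 := (mt HahnSeries.coeff_order_eq_zero.mp h0)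
  rw [coeffEmb_coeff, coeff_jq_of_lt hlt, map_zero] at h2
  exact h2 rfl

/-- A7b. the cusp `∞`: the place given by the order of Laurent series (`S24.FF.exists_place_of_ordFun`; `j` has order `-1`). -/
theorem exists_infP : ∃ v : Place L (FL L N), ∀ f : FL L N, f ≠ 0 →
    v.ord f = (f : LaurentSeries L).order := by
  have hcoe : ∀ f : FL L N, f ≠ 0 → (f : LaurentSeries L) ≠ 0 := fun f hf h => hf (Subtype.ext h)
  obtain ⟨v, c, hc, hv⟩ := Fermat.Agent.S24.FF.exists_place_of_ordFun (K := L) (F := FL L N)
    (fun f => (f : LaurentSeries L).order)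
    (fun f g hf hg => HahnSeries.order_mul (hcoe f hf) (hcoe g hg))
    (fun f g _ _ hfg => HahnSeries.min_order_le_order_add (hcoe _ hfg))
    (fun a ha => by
      show (algebraMap L (LaurentSeries L) a).order = 0
      rw [algebraMap_laurentSeries_eq_single, HahnSeries.order_single ha])
    ⟨⟨coeffEmb L jq, coeffEmb_mem_laurentBaseChange L (by
        have := jqd_mem_full N (one_dvd N); rwa [qExpand_one_apply] at this)⟩, by
      intro h
      have h1 := congrArg (fun x : FL L N => (x : LaurentSeries L).coeff (-1)) h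
      simp at h1, by
      show (coeffEmb L jq).order ≠ 0
      rw [Base.order_coeffEmb_jq]
      norm_num⟩
  have hj0 : (⟨coeffEmb L jq, coeffEmb_mem_laurentBaseChange L (by
        have := jqd_mem_full N (one_dvd N); rwa [qExpand_one_apply] at this)⟩ : FL L N) ≠ 0 := by
    intro h
    have h1 := congrArg (fun x : FL L N => (x : LaurentSeries L).coeff (-1)) h
    simp at h1
  have h1 := hv _ hj0
  simp only [Base.order_coeffEmb_jq] at h1
  have hc1 : c = 1 := by
    have h2 : (c : ℤ) ∣ 1 := ⟨-v.ord _, by rw [mul_neg, ← h1]; norm_num⟩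
    have h3 := Int.eq_one_of_dvd_one (by positivity) h2
    exact_mod_cast h3
  refine ⟨v, fun f hf => ?_⟩
  have := hv f hf
  rw [hc1] at this
  simpa using this.symm

/-- the cusp `∞` -/
noncomputable def infP : Place L (FL L N) := (exists_infP L N).choose

variable {L N}

theorem infP_ord {f : FL L N} (hf : f ≠ 0) : (infP L N).ord f = (f : LaurentSeries L).order :=
  (exists_infP L N).choose_spec f hf

omit [NeZero N] [IsAlgClosed L] [CharZero L] in
theorem Base.order_coeffMap (σ : L ≃ₐ[ℚ] L) (x : LaurentSeries L) :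
    (coeffMap (σ : L →+* L) x).order = x.order := by
  rcases eq_or_ne x 0 with rfl | hx
  · simp
  have hx' : coeffMap (σ : L →+* L) x ≠ 0 := by
    intro h
    apply hx
    ext n
    have := congrArg (fun y : LaurentSeries L => y.coeff n) h
    simpa using this
  apply le_antisymm
  · refine HahnSeries.order_le_of_coeff_ne_zero ?_
    rw [coeffMap_coeff]
    simpa using (mt HahnSeries.coeff_order_eq_zero.mp hx)
  · refine HahnSeries.order_le_of_coeff_ne_zero ?_
    have := (mt HahnSeries.coeff_order_eq_zero.mp hx')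
    rw [coeffMap_coeff] at this
    simpa using this

theorem gal_smul_infP (σ : L ≃ₐ[ℚ] L) : gal L N σ • infP L N = infP L N := by
  refine Fermat.Agent.S24.FF.eq_of_forall_ord_nonneg fun f hf => ?_
  rcases eq_or_ne f 0 with rfl | hf0
  · simp
  have h1 := SemilinearAut.ord_smul (gal L N σ) (infP L N) ((gal L N σ)⁻¹ • f)
  rw [smul_inv_smul] at h1
  have hf1 : (gal L N σ)⁻¹ • f ≠ 0 := by
    intro h
    apply hf0
    have := congrArg (fun x => gal L N σ • x) h
    simpa using this
  rw [h1, infP_ord hf1] at hf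
  rw [infP_ord hf0]
  have h2 : (gal L N σ)⁻¹ = gal L N σ⁻¹ := (map_inv _ _).symm
  rw [h2, coe_gal_smul, Base.order_coeffMap] at hf
  exact hf

/-- value at `∞` = constant coefficient -/
theorem val_infP {f : FL L N} (hf : 0 ≤ (infP L N).ord f) :
    val (infP L N) f = (f : LaurentSeries L).coeff 0 := by
  refine val_eq_of ?_
  by_cases h : f = algebraMap L (FL L N) ((f : LaurentSeries L).coeff 0)
  · exact Or.inl h
  right
  have hg0 : f - algebraMap L (FL L N) ((f : LaurentSeries L).coeff 0) ≠ 0 := sub_ne_zero.mpr h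
  rw [infP_ord hg0]
  have hgM : ((f - algebraMap L (FL L N) ((f : LaurentSeries L).coeff 0) : FL L N) :
      LaurentSeries L) ≠ 0 := fun h' => hg0 (Subtype.ext h')
  have hne := (mt HahnSeries.coeff_order_eq_zero.mp hgM)
  have hcoe : ((f - algebraMap L (FL L N) ((f : LaurentSeries L).coeff 0) : FL L N) :
      LaurentSeries L) = (f : LaurentSeries L)
        - HahnSeries.single 0 ((f : LaurentSeries L).coeff 0) := by
    rw [← algebraMap_laurentSeries_eq_single]; rfl
  by_contra hle
  push Not at hle
  rw [hcoe] at hne hle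
  set n := ((f : LaurentSeries L) - HahnSeries.single 0 ((f : LaurentSeries L).coeff 0)).order
    with hn
  rcases hle.lt_or_eq with hlt | heq
  · apply hne
    rw [HahnSeries.coeff_sub, HahnSeries.coeff_single_of_ne hlt.ne, sub_zero]
    rcases eq_or_ne f 0 with rfl | hf0
    · simp
    · rw [infP_ord hf0] at hf
      exact HahnSeries.coeff_eq_zero_of_lt_order (lt_of_lt_of_le hlt hf)
  · apply hne
    rw [heq, HahnSeries.coeff_sub, HahnSeries.coeff_single_same, sub_self]

/-- A8. **Echelon trick**: a finite dimensional `L`-subspace of `F_L` stable under a set `Γ` of coefficientwise automorphisms has a basis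
of `Γ`-fixed vectors.  (The reduced echelon basis with respect to the `q`-order: `f_i = q^{o_i} + ∑_{n ∉ {o_j}} a_n q^n`; it is unique.) -/
theorem exists_fixed_basis (Γ : Set (L ≃ₐ[ℚ] L)) (V : Submodule L (FL L N)) [FiniteDimensional L V]
    (hV : ∀ σ ∈ Γ, ∀ f ∈ V, gal L N σ • f ∈ V) :
    ∃ b : Module.Basis (Fin (Module.finrank L V)) L V, ∀ σ ∈ Γ, ∀ i, gal L N σ • (b i : FL L N) = b i := by
  obtain ⟨b, hb⟩ := Echelon.exists_fixed_basis_intermediateField (FL L N) (G := Γ)
    (fun σ f => gal L N σ.1 • f) (fun σ => (σ.1 : L →+* L)) (fun _ _ => rfl) V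
    (fun σ f hf => hV σ.1 σ.2 f hf)
  exact ⟨b, fun σ hσ i => hb ⟨σ, hσ⟩ i⟩

/-- `L(D)` is stable under `σ` if `D` is. -/
theorem gal_smul_mem_LSp (σ : L ≃ₐ[ℚ] L) {D : Divisor L (FL L N)} {f : FL L N} (hf : f ∈ LSp D) :
    gal L N σ • f ∈ LSp (gal L N σ • D) := by
  rcases hf with rfl | hf
  · left; simp
  right
  intro v
  have h1 := SemilinearAut.ord_smul (gal L N σ) ((gal L N σ)⁻¹ • v) f
  rw [smul_inv_smul] at h1
  rw [h1, SemilinearAut.divisor_smul_apply]
  exact hf _

end Fermat.Agent.S17
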