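import Fermat.Agent.S17.Curve.Defs

/-! # S17 : elementary API for `Lk`, `crd`, `nrm`, `ev`, `pt` (no uniformity here) -/

set_option autoImplicit false

open AlgebraicCurve ModularCurve IntermediateField

namespace Fermat.Agent.S17

open FF

variable {N : ℕ} [NeZero N]

/-! ### the spaces `L_k` -/

theorem degree_koo (k : ℕ) : Divisor.degree (koo N k) = k := by
  rw [koo, map_zsmul, LBasic.degree_pdiv]
  simp

theorem koo_add (k k' : ℕ) : koo N (k + k') = koo N k + koo N k' := by
  simp only [koo, Nat.cast_add, add_smul]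

theorem koo_apply_oo (k : ℕ) : koo N k (oo N) = k := by
  simp [koo]

theorem koo_apply_of_ne (k : ℕ) {P : Pl N} (h : P ≠ oo N) : koo N k P = 0 := by
  simp [koo, Ne.symm h]

theorem mem_Lk_iff {k : ℕ} {f : FN N} : f ∈ Lk N k ↔
    f = 0 ∨ ((∀ P : Pl N, P ≠ oo N → 0 ≤ P.ord f) ∧ -(k : ℤ) ≤ (f : LaurentSeries Kb).order) := by
  rw [Lk, mem_LSp]
  rcases eq_or_ne f 0 with rfl | hf
  · simp
  · simp only [hf, false_or]
    constructor
    · intro h
      refine ⟨fun P hP => ?_, ?_⟩
      · have := h P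
        rwa [koo_apply_of_ne k hP, add_zero] at this
      · have := h (oo N)
        rw [koo_apply_oo, infP_ord hf] at this
        omega
    · rintro ⟨h1, h2⟩ P
      by_cases hP : P = oo N
      · subst hP
        rw [koo_apply_oo, infP_ord hf]
        omega
      · rw [koo_apply_of_ne k hP, add_zero]
        exact h1 P hP

theorem koo_mono {k k' : ℕ} (h : k ≤ k') : koo N k ≤ koo N k' := by
  intro P
  by_cases hP : P = oo N
  · subst hP
    rw [koo_apply_oo, koo_apply_oo]
    exact_mod_cast h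
  · rw [koo_apply_of_ne k hP, koo_apply_of_ne k' hP]

theorem Lk_mono {k k' : ℕ} (h : k ≤ k') : Lk N k ≤ Lk N k' :=
  LSp_mono (koo_mono h)

theorem one_mem_Lk (k : ℕ) : (1 : FN N) ∈ Lk N k := by
  have h0 : (1 : FN N) ∈ Lk N 0 := by
    have : koo N 0 = 0 := by simp [koo]
    rw [Lk, this, mem_LSp_zero]
    exact ⟨1, by simp⟩
  exact Lk_mono (Nat.zero_le k) h0

theorem mul_mem_Lk {k k' : ℕ} {f g : FN N} (hf : f ∈ Lk N k) (hg : g ∈ Lk N k') :
    f * g ∈ Lk N (k + k') := by
  rw [Lk, koo_add]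
  exact mul_mem_LSp hf hg

theorem mk_eq {k : ℕ} (hk : rc Kb (FN N) ≤ k) : (mk N k : ℤ) = k + 1 - genus Kb (FN N) := by
  have := riemann_eq (K := Kb) (F := FN N) (D := koo N k) (by rw [degree_koo]; exact hk)
  rw [degree_koo] at this
  exact this

theorem Lk_mul_Lk {k k' : ℕ} (hk : rc Kb (FN N) + 1 ≤ k) (hk' : rc Kb (FN N) + k ≤ k') :
    Lk N k * Lk N k' = Lk N (k + k') := by
  rw [Lk, Lk, Lk, koo_add]
  exact LSp_mul_LSp (by rw [degree_koo]; exact hk) (by rw [degree_koo, degree_koo]; exact hk')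

theorem gal_smul_mem_Lk (σ : GQ) {k : ℕ} {f : FN N} (hf : f ∈ Lk N k) : gal Kb N σ • f ∈ Lk N k := by
  have := gal_smul_mem_LSp σ hf
  rwa [koo_isRat N k σ] at this

/-! ### coordinates -/

theorem crd_of_mem {k : ℕ} {f : FN N} (hf : f ∈ Lk N k) :
    crd N k f = ⇑((bas N k).repr ⟨f, hf⟩) := by
  rw [crd, dif_pos hf]

theorem crd_of_notMem {k : ℕ} {f : FN N} (hf : f ∉ Lk N k) : crd N k f = 0 := by
  rw [crd, dif_neg hf]

theorem sum_bas_mem (k : ℕ) (a : Fin (mk N k) → Kb) :
    (∑ i, a i • (bas N k i : FN N)) ∈ Lk N k :=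
  Submodule.sum_mem _ fun i _ => Submodule.smul_mem _ _ (bas N k i).2

/-- the linear map `a ↦ ∑ a_i b_i` -/
theorem coe_equivFun_symm (k : ℕ) (a : Fin (mk N k) → Kb) :
    (((bas N k).equivFun.symm a : Lk N k) : FN N) = ∑ i, a i • (bas N k i : FN N) := by
  rw [Module.Basis.equivFun_symm_apply]
  exact (map_sum (Lk N k).subtype _ _)

theorem eq_sum_crd {k : ℕ} {f : FN N} (hf : f ∈ Lk N k) :
    f = ∑ i, crd N k f i • (bas N k i : FN N) := by
  rw [← coe_equivFun_symm, crd_of_mem hf]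
  have : (bas N k).equivFun.symm ⇑((bas N k).repr ⟨f, hf⟩) = ⟨f, hf⟩ :=
    (bas N k).equivFun.symm_apply_apply ⟨f, hf⟩
  rw [this]

theorem crd_sum (k : ℕ) (a : Fin (mk N k) → Kb) : crd N k (∑ i, a i • (bas N k i : FN N)) = a := by
  rw [crd_of_mem (sum_bas_mem k a)]
  have : (⟨∑ i, a i • (bas N k i : FN N), sum_bas_mem k a⟩ : Lk N k) = (bas N k).equivFun.symm a :=
    Subtype.ext (coe_equivFun_symm k a).symm
  rw [this]
  exact (bas N k).equivFun.apply_symm_apply a

theorem crd_add {k : ℕ} {f g : FN N} (hf : f ∈ Lk N k) (hg : g ∈ Lk N k) :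
    crd N k (f + g) = crd N k f + crd N k g := by
  conv_lhs => rw [eq_sum_crd hf, eq_sum_crd hg, ← Finset.sum_add_distrib]
  simp only [← add_smul]
  exact crd_sum k _

theorem crd_zero (k : ℕ) : crd N k 0 = 0 := by
  have := crd_sum (N := N) k 0
  simpa using this

theorem crd_smul (k : ℕ) (a : Kb) (f : FN N) : crd N k (a • f) = a • crd N k f := by
  by_cases hf : f ∈ Lk N k
  · conv_lhs => rw [eq_sum_crd hf, Finset.smul_sum]
    simp only [smul_smul]
    exact crd_sum k _
  · rcases eq_or_ne a 0 with rfl | ha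
    · rw [zero_smul, zero_smul, crd_zero]
    · have : a • f ∉ Lk N k := fun h => hf ((Submodule.smul_mem_iff _ ha).mp h)
      rw [crd_of_notMem hf, crd_of_notMem this, smul_zero]

theorem crd_eq_zero_iff {k : ℕ} {f : FN N} (hf : f ∈ Lk N k) : crd N k f = 0 ↔ f = 0 := by
  constructor
  · intro h
    rw [eq_sum_crd hf, h]
    simp
  · rintro rfl
    exact crd_zero k

omit [NeZero N] in
theorem gal_smul_smul (σ : GQ) (a : Kb) (f : FN N) :
    gal Kb N σ • (a • f) = σ a • (gal Kb N σ • f) := by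
  rw [Algebra.smul_def, Algebra.smul_def, smul_mul', SemilinearAut.smul_algebraMap]
  rfl

theorem gal_smul_mem_Lk_iff (σ : GQ) {k : ℕ} {f : FN N} : gal Kb N σ • f ∈ Lk N k ↔ f ∈ Lk N k := by
  refine ⟨fun h => ?_, gal_smul_mem_Lk σ⟩
  have := gal_smul_mem_Lk σ⁻¹ h
  have e : gal Kb N σ⁻¹ = (gal Kb N σ)⁻¹ := map_inv _ _
  rwa [e, inv_smul_smul] at this

theorem crd_gal (σ : GQ) (k : ℕ) (f : FN N) (i : Fin (mk N k)) :
    crd N k (gal Kb N σ • f) i = σ (crd N k f i) := by
  by_cases hf : f ∈ Lk N k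
  · conv_lhs => rw [eq_sum_crd hf, Finset.smul_sum]
    simp only [gal_smul_smul, bas_isRat N k _ σ]
    rw [crd_sum]
  · have : gal Kb N σ • f ∉ Lk N k := fun h => hf ((gal_smul_mem_Lk_iff σ).mp h)
    rw [crd_of_notMem hf, crd_of_notMem this]
    simp

/-- rational sections have rational coordinates -/
theorem exists_rat_crd {k : ℕ} {f : FN N} (hf : IsRatF N f) :
    ∃ a : Fin (mk N k) → ℚ, crd N k f = fun i => (a i : Kb) := by
  have hac : IsAlgClosure ℚ Kb :=
    (inferInstance : @IsAlgClosure ℚ (AlgebraicClosure ℚ) _ _ (AlgebraicClosure.instAlgebra ℚ) _)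
  have hgal : IsGalois ℚ Kb := inferInstance
  have h : ∀ i, ∃ a : ℚ, algebraMap ℚ Kb a = crd N k f i := by
    intro i
    have := (InfiniteGalois.mem_range_algebraMap_iff_fixed (k := ℚ) (K := Kb) (crd N k f i)).mpr
      (fun σ => by rw [← crd_gal, hf σ])
    exact this
  choose a ha using h
  refine ⟨a, funext fun i => ?_⟩
  rw [← ha i]
  simp

theorem isRatF_sum_rat (k : ℕ) (a : Fin (mk N k) → ℚ) :
    IsRatF N (∑ i, (a i : Kb) • (bas N k i : FN N)) := by
  intro σ
  rw [Finset.smul_sum]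
  refine Finset.sum_congr rfl fun i _ => ?_
  rw [gal_smul_smul, bas_isRat N k i σ]
  simp

/-! ### evaluation -/

namespace BasicB

theorem ord_nonneg_of_mem {k : ℕ} {f : FN N} (hf : f ∈ Lk N k) {P : Pl N} (hP : P ≠ oo N) :
    0 ≤ P.ord f := by
  rcases mem_Lk_iff.mp hf with rfl | h
  · simp
  · exact h.1 P hP

theorem coeff_eq_zero_of_mem {k : ℕ} {f : FN N} (hf : f ∈ Lk N k) {n : ℤ} (hn : n < -(k : ℤ)) :
    (f : LaurentSeries Kb).coeff n = 0 := by
  rcases mem_Lk_iff.mp hf with rfl | h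
  · simp
  · exact HahnSeries.coeff_eq_zero_of_lt_order (lt_of_lt_of_le hn h.2)

theorem isAlgClosure_Kb : IsAlgClosure ℚ Kb :=
  (inferInstance : @IsAlgClosure ℚ (AlgebraicClosure ℚ) _ _ (AlgebraicClosure.instAlgebra ℚ) _)

theorem coeff_smul' (a : Kb) (f : FN N) (n : ℤ) :
    ((a • f : FN N) : LaurentSeries Kb).coeff n = a * (f : LaurentSeries Kb).coeff n := by
  have h0 : ((algebraMap Kb (FN N) a : FN N) : LaurentSeries Kb) =
      algebraMap Kb (LaurentSeries Kb) a := rfl
  rw [Algebra.smul_def, IntermediateField.coe_mul, h0, algebraMap_laurentSeries_eq_single,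
    HahnSeries.coeff_single_zero_mul]

theorem coeff_mul_of_bounds {R : Type*} [Semiring R] (x y : HahnSeries ℤ R) (a b : ℤ)
    (hx : ∀ i < a, x.coeff i = 0) (hy : ∀ j < b, y.coeff j = 0) :
    (x * y).coeff (a + b) = x.coeff a * y.coeff b := by
  classical
  rw [HahnSeries.coeff_mul, Finset.sum_eq_single (a, b)]
  · rintro ⟨i, j⟩ hij hne
    rw [Finset.mem_antidiagonal] at hij
    obtain ⟨hi, hj, hsum⟩ := hij
    simp only at hi hj hsum
    have hi' : a ≤ i := by
      by_contra h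
      exact hi (hx i (not_le.mp h))
    have hj' : b ≤ j := by
      by_contra h
      exact hj (hy j (not_le.mp h))
    exfalso
    apply hne
    have h1 : i = a := by omega
    have h2 : j = b := by omega
    rw [h1, h2]
  · intro h
    rw [Finset.mem_antidiagonal] at h
    simp only [HahnSeries.mem_support, not_and, ne_eq] at h
    by_cases hxa : x.coeff a = 0
    · rw [hxa, zero_mul]
    · by_cases hyb : y.coeff b = 0
      · rw [hyb, mul_zero]
      · exact absurd trivial (h hxa hyb)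

end BasicB

open BasicB

theorem ev_add {k : ℕ} (P : Pl N) {f g : FN N} (hf : f ∈ Lk N k) (hg : g ∈ Lk N k) :
    ev N k P (f + g) = ev N k P f + ev N k P g := by
  unfold ev
  split_ifs with hP
  · simp
  · exact val_add P (ord_nonneg_of_mem hf hP) (ord_nonneg_of_mem hg hP)

theorem ev_smul {k : ℕ} (P : Pl N) (a : Kb) {f : FN N} (hf : f ∈ Lk N k) :
    ev N k P (a • f) = a * ev N k P f := by
  unfold ev
  split_ifs with hP
  · exact coeff_smul' a f _
  · exact val_smul P a (ord_nonneg_of_mem hf hP)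

theorem ev_mul {k k' : ℕ} (P : Pl N) {f g : FN N} (hf : f ∈ Lk N k) (hg : g ∈ Lk N k') :
    ev N (k + k') P (f * g) = ev N k P f * ev N k' P g := by
  unfold ev
  split_ifs with hP
  · have h1 : (-((k + k' : ℕ) : ℤ)) = -(k : ℤ) + -(k' : ℤ) := by push_cast; ring
    rw [h1]
    exact coeff_mul_of_bounds _ _ _ _ (fun i hi => coeff_eq_zero_of_mem hf hi)
      (fun j hj => coeff_eq_zero_of_mem hg hj)
  · exact val_mul P (ord_nonneg_of_mem hf hP) (ord_nonneg_of_mem hg hP)

namespace BasicB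

theorem ev_zero (k : ℕ) (P : Pl N) : ev N k P 0 = 0 := by
  have := ev_smul P 0 (Submodule.zero_mem (Lk N k))
  rwa [zero_smul, zero_mul] at this

theorem ev_sum {k : ℕ} (P : Pl N) {κ : Type*} (s : Finset κ) (a : κ → Kb) (g : κ → FN N)
    (hg : ∀ i ∈ s, g i ∈ Lk N k) :
    ev N k P (∑ i ∈ s, a i • g i) = ∑ i ∈ s, a i * ev N k P (g i) := by
  classical
  induction s using Finset.induction_on with
  | empty => simpa using ev_zero k P
  | insert j s hj ih =>
    rw [Finset.sum_insert hj, Finset.sum_insert hj,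
      ev_add P (Submodule.smul_mem _ _ (hg j (Finset.mem_insert_self j s)))
        (Submodule.sum_mem _ fun i hi => Submodule.smul_mem _ _ (hg i (Finset.mem_insert_of_mem hi))),
      ev_smul P _ (hg j (Finset.mem_insert_self j s)),
      ih fun i hi => hg i (Finset.mem_insert_of_mem hi)]

end BasicB

theorem ev_eq_sum {k : ℕ} (P : Pl N) {f : FN N} (hf : f ∈ Lk N k) :
    ev N k P f = ∑ i, crd N k f i * pt N k P i := by
  conv_lhs => rw [eq_sum_crd hf]
  exact ev_sum P Finset.univ _ _ fun i _ => (bas N k i).2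

namespace BasicB

open Classical in
theorem koo_apply (k : ℕ) (v : Pl N) : koo N k v = if v = oo N then (k : ℤ) else 0 := by
  rw [koo, Finsupp.smul_apply, Finsupp.single_apply]
  by_cases h : v = oo N
  · rw [if_pos h, if_pos h.symm]; simp
  · rw [if_neg h, if_neg (Ne.symm h)]; simp

theorem mem_LSp_koo_sub_iff {k : ℕ} (P : Pl N) {f : FN N} (hf : f ∈ Lk N k) (hf0 : f ≠ 0) :
    f ∈ LSp (koo N k - pdiv P) ↔ 0 ≤ P.ord f + koo N k P - 1 := by
  classical
  have hf' := ((mem_LSp (D := koo N k)).mp hf).resolve_left hf0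
  rw [mem_LSp]
  constructor
  · intro h
    have := h.resolve_left hf0 P
    rw [Finsupp.sub_apply, Finsupp.single_eq_same] at this
    omega
  · intro h
    right
    intro v
    rw [Finsupp.sub_apply]
    by_cases hv : v = P
    · subst hv
      rw [Finsupp.single_eq_same]
      omega
    · rw [Finsupp.single_eq_of_ne hv, sub_zero]
      exact hf' v

end BasicB

/-- the kernel of `ev_P` on `L_k` is `L(k∞ - P)` -/
theorem ev_eq_zero_iff {k : ℕ} (P : Pl N) {f : FN N} (hf : f ∈ Lk N k) :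
    ev N k P f = 0 ↔ f ∈ LSp (koo N k - pdiv P) := by
  by_cases hf0 : f = 0
  · subst hf0
    simp [ev_zero]
  rw [mem_LSp_koo_sub_iff P hf hf0, koo_apply]
  have hf' := ((mem_LSp (D := koo N k)).mp hf).resolve_left hf0
  unfold ev
  split_ifs with hP
  · subst hP
    have h1 := hf' (oo N)
    rw [koo_apply, if_pos rfl, infP_ord hf0] at h1
    rw [infP_ord hf0]
    have hf0' : (f : LaurentSeries Kb) ≠ 0 := fun h => hf0 (Subtype.ext h)
    constructor
    · intro h
      have h2 : (f : LaurentSeries Kb).order ≠ -(k : ℤ) := by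
        intro h3
        apply hf0'
        rw [← HahnSeries.coeff_order_eq_zero, h3]
        exact h
      omega
    · intro h
      exact HahnSeries.coeff_eq_zero_of_lt_order (by omega)
  · rw [val_eq_zero_iff P (ord_nonneg_of_mem hf hP)]
    constructor
    · intro h
      have := h.resolve_left hf0
      omega
    · intro h
      right
      omega

theorem ev_gal (σ : GQ) {k : ℕ} (P : Pl N) {f : FN N} (hf : f ∈ Lk N k) :
    ev N k (gal Kb N σ • P) (gal Kb N σ • f) = σ (ev N k P f) := by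
  unfold ev
  by_cases hP : P = oo N
  · subst hP
    rw [if_pos (gal_smul_infP σ), if_pos rfl]
    exact coeff_gal_smul σ f _
  · have hP' : gal Kb N σ • P ≠ oo N := by
      intro h
      apply hP
      exact smul_left_cancel _ (h.trans (gal_smul_infP σ).symm)
    rw [if_neg hP', if_neg hP]
    exact val_smul_semilinear (gal Kb N σ) P (ord_nonneg_of_mem hf hP)

/-! ### points -/

theorem pt_gal (σ : GQ) (k : ℕ) (P : Pl N) (i : Fin (mk N k)) :
    pt N k (gal Kb N σ • P) i = σ (pt N k P i) := by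
  unfold pt
  rw [← ev_gal σ P (bas N k i).2, bas_isRat N k i σ]

theorem pt_ne_zero {k : ℕ} (hk : rc Kb (FN N) + 1 ≤ k) (P : Pl N) : pt N k P ≠ 0 := by
  intro h0
  have hle : LSp (koo N k) ≤ LSp (koo N k - pdiv P) := by
    intro f hf
    rw [← ev_eq_zero_iff P hf, ev_eq_sum P hf, h0]
    simp
  have h1 : ell (koo N k) ≤ ell (koo N k - pdiv P) := Submodule.finrank_mono hle
  have h2 := ell_sub_pdiv (D := koo N k) (by rw [degree_koo]; exact hk) P
  omega

theorem pt_injective {k : ℕ} (hk : rc Kb (FN N) + 2 ≤ k) {P Q : Pl N} {c : Kb}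
    (h : pt N k P = c • pt N k Q) : P = Q := by
  classical
  by_contra hPQ
  have hle : LSp (koo N k - pdiv Q) ≤ LSp (koo N k - pdiv Q - pdiv P) := by
    intro f hf
    have hfk : f ∈ Lk N k := by
      refine LSp_mono ?_ hf
      rw [sub_le_self_iff]
      exact Finsupp.single_nonneg.mpr zero_le_one
    by_cases hf0 : f = 0
    · subst hf0
      exact Submodule.zero_mem _
    have h1 : ev N k Q f = 0 := (ev_eq_zero_iff Q hfk).mpr hf
    have h2 : ev N k P f = 0 := by
      rw [ev_eq_sum P hfk, h]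
      rw [ev_eq_sum Q hfk] at h1
      calc ∑ i, crd N k f i * (c • pt N k Q) i = c * ∑ i, crd N k f i * pt N k Q i := by
            rw [Finset.mul_sum]
            refine Finset.sum_congr rfl fun i _ => ?_
            rw [Pi.smul_apply, smul_eq_mul]
            ring
        _ = 0 := by rw [h1, mul_zero]
    have h3 := ((mem_LSp).mp ((ev_eq_zero_iff P hfk).mp h2)).resolve_left hf0
    have h4 := ((mem_LSp).mp hf).resolve_left hf0
    right
    intro v
    by_cases hv : v = P
    · subst hv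
      have := h3 v
      rw [Finsupp.sub_apply] at this
      rw [Finsupp.sub_apply, Finsupp.sub_apply, Finsupp.single_eq_of_ne hPQ]
      omega
    · have := h4 v
      rw [Finsupp.sub_apply, Finsupp.single_eq_of_ne hv, sub_zero]
      exact this
  have h1 : ell (koo N k - pdiv Q) ≤ ell (koo N k - pdiv Q - pdiv P) := Submodule.finrank_mono hle
  have h2 := ell_sub_pdiv (D := koo N k - pdiv Q)
    (by rw [map_sub, degree_koo, Bpf.degree_pdiv]; omega) P
  omega

theorem ptn_pos {k : ℕ} (hk : rc Kb (FN N) + 1 ≤ k) (v : PlQ) (P : Pl N) : 0 < ptn N v k P :=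
  supn_pos v (pt_ne_zero hk P)

theorem rc_add_two_le_mu0 : rc Kb (FN N) + 2 ≤ (mu0 N : ℤ) := by
  unfold mu0
  have := Int.self_le_toNat (rc Kb (FN N))
  push_cast
  omega

/-- every place is fixed by an open subgroup -/
theorem exists_fixingSubgroup_place (P : Pl N) : ∃ L : IntermediateField ℚ Kb, FiniteDimensional ℚ L ∧
    ∀ σ ∈ L.fixingSubgroup, gal Kb N σ • P = P := by
  refine ⟨IntermediateField.adjoin ℚ (Set.range (pt N (mu0 N) P)), ?_, ?_⟩
  · have := isAlgClosure_Kb.isAlgebraic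
    exact IntermediateField.finiteDimensional_adjoin
      (fun x _ => (Algebra.IsAlgebraic.isAlgebraic x).isIntegral)
  · intro σ hσ
    refine pt_injective (k := mu0 N) (c := 1) rc_add_two_le_mu0 ?_
    funext i
    rw [pt_gal, one_smul]
    exact (IntermediateField.mem_fixingSubgroup_iff _ σ).mp hσ _
      (IntermediateField.subset_adjoin _ _ ⟨i, rfl⟩)

/-! ### the sections `sec P ik` -/

theorem secx_mem (x : Fin (mk N (mu0 N)) → Kb) (ik) : secx N x ik ∈ Lk N (mu0 N) := by
  exact Submodule.sub_mem _ (Submodule.smul_mem _ _ (bas N (mu0 N) ik.2).2)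
    (Submodule.smul_mem _ _ (bas N (mu0 N) ik.1).2)

theorem ev_sec (P Q : Pl N) (ik : Fin (mk N (mu0 N)) × Fin (mk N (mu0 N))) :
    ev N (mu0 N) Q (sec N P ik) =
      pt N (mu0 N) P ik.1 * pt N (mu0 N) Q ik.2 - pt N (mu0 N) P ik.2 * pt N (mu0 N) Q ik.1 := by
  have h1 : (bas N (mu0 N) ik.1 : FN N) ∈ Lk N (mu0 N) := (bas N (mu0 N) ik.1).2
  have h2 : (bas N (mu0 N) ik.2 : FN N) ∈ Lk N (mu0 N) := (bas N (mu0 N) ik.2).2
  have e : sec N P ik = pt N (mu0 N) P ik.1 • (bas N (mu0 N) ik.2 : FN N) +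
      (- pt N (mu0 N) P ik.2) • (bas N (mu0 N) ik.1 : FN N) := by
    simp only [secx, neg_smul, sub_eq_add_neg]
  rw [e, ev_add Q (Submodule.smul_mem _ _ h2) (Submodule.smul_mem _ _ h1), ev_smul Q _ h2,
    ev_smul Q _ h1]
  simp only [pt]
  ring

/-- the `sec P ik` span `L(μ₀∞ - P)` -/
theorem span_sec (P : Pl N) :
    Submodule.span Kb (Set.range (sec N P)) = LSp (koo N (mu0 N) - pdiv P) := by
  have hmu := rc_add_two_le_mu0 (N := N)
  apply le_antisymm
  · rw [Submodule.span_le]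
    rintro _ ⟨ik, rfl⟩
    rw [SetLike.mem_coe, ← ev_eq_zero_iff P (secx_mem _ ik), ev_sec]
    ring
  · intro f hf
    have hle : koo N (mu0 N) - pdiv P ≤ koo N (mu0 N) := by
      rw [sub_le_self_iff]
      intro v
      simp only [Finsupp.coe_zero, Pi.zero_apply]
      exact Finsupp.single_nonneg.mpr zero_le_one v
    have hfL : f ∈ Lk N (mu0 N) := LSp_mono hle hf
    have hev : ev N (mu0 N) P f = 0 := (ev_eq_zero_iff P hfL).mpr hf
    rw [ev_eq_sum P hfL] at hev
    have hne : pt N (mu0 N) P ≠ 0 := pt_ne_zero (by omega) P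
    obtain ⟨i₀, hi₀⟩ : ∃ i, pt N (mu0 N) P i ≠ 0 := by
      by_contra h
      push Not at h
      exact hne (funext h)
    have key : f = (pt N (mu0 N) P i₀)⁻¹ • ∑ k, crd N (mu0 N) f k • sec N P (i₀, k) := by
      have e1 : ∑ k, crd N (mu0 N) f k • sec N P (i₀, k) =
          pt N (mu0 N) P i₀ • ∑ k, crd N (mu0 N) f k • (bas N (mu0 N) k : FN N) -
            (∑ k, crd N (mu0 N) f k * pt N (mu0 N) P k) • (bas N (mu0 N) i₀ : FN N) := by
        rw [Finset.smul_sum, Finset.sum_smul, ← Finset.sum_sub_distrib]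
        refine Finset.sum_congr rfl fun k _ => ?_
        simp only [secx, smul_sub, smul_smul]
        rw [mul_comm (crd N (mu0 N) f k) (pt N (mu0 N) P i₀)]
      rw [e1, hev, zero_smul, sub_zero, ← eq_sum_crd hfL, smul_smul, inv_mul_cancel₀ hi₀, one_smul]
    rw [key]
    refine Submodule.smul_mem _ _ (Submodule.sum_mem _ fun k _ => Submodule.smul_mem _ _ ?_)
    exact Submodule.subset_span ⟨(i₀, k), rfl⟩

/-! ### the distance -/

/-- the vector of `2 × 2` minors of `(pt P, pt Q)` -/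
noncomputable def minorsPQ (P Q : Pl N) : Fin (mk N (mu0 N)) × Fin (mk N (mu0 N)) → Kb :=
  fun ik => pt N (mu0 N) P ik.1 * pt N (mu0 N) Q ik.2 - pt N (mu0 N) P ik.2 * pt N (mu0 N) Q ik.1

theorem dl_def (v : PlQ) (P Q : Pl N) :
    dl N v P Q = supn v (minorsPQ P Q) / (ptn N v (mu0 N) P * ptn N v (mu0 N) Q) := rfl

theorem ptn_mu0_pos (v : PlQ) (P : Pl N) : 0 < ptn N v (mu0 N) P :=
  ptn_pos (by have := rc_add_two_le_mu0 (N := N); omega) v P

theorem minorsPQ_eq_zero_iff (P Q : Pl N) : minorsPQ P Q = 0 ↔ P = Q := by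
  have hmu := rc_add_two_le_mu0 (N := N)
  constructor
  · intro h
    have hne : pt N (mu0 N) Q ≠ 0 := pt_ne_zero (by omega) Q
    obtain ⟨k, hk⟩ : ∃ i, pt N (mu0 N) Q i ≠ 0 := by
      by_contra h
      push Not at h
      exact hne (funext h)
    apply pt_injective (k := mu0 N) hmu (c := pt N (mu0 N) P k / pt N (mu0 N) Q k)
    funext i
    have := congrFun h (i, k)
    simp only [minorsPQ, Pi.zero_apply] at this
    rw [Pi.smul_apply, smul_eq_mul]
    field_simp
    linear_combination this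
  · rintro rfl
    funext ik
    simp only [minorsPQ, Pi.zero_apply]
    ring

theorem dl_comm (v : PlQ) (P Q : Pl N) : dl N v P Q = dl N v Q P := by
  have h : minorsPQ Q P = (-1 : Kb) • minorsPQ P Q := by
    funext ik
    simp only [minorsPQ, Pi.smul_apply, smul_eq_mul]
    ring
  rw [dl_def, dl_def, h, supn_smul, AbsoluteValue.map_neg, map_one, one_mul,
    mul_comm (ptn N v (mu0 N) P)]

theorem dl_nonneg (v : PlQ) (P Q : Pl N) : 0 ≤ dl N v P Q :=
  div_nonneg (supn_nonneg _ _) (mul_nonneg (supn_nonneg _ _) (supn_nonneg _ _))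

theorem dl_le (v : PlQ) (P Q : Pl N) : dl N v P Q ≤ kap v 2 := by
  have hP := ptn_mu0_pos v P
  have hQ := ptn_mu0_pos v Q
  rw [dl_def, div_le_iff₀ (mul_pos hP hQ)]
  have hk : 0 ≤ kap v 2 := by
    unfold kap
    split_ifs
    · exact le_trans zero_le_one (le_max_left _ _)
    · exact zero_le_one
  rw [supn_le_iff v _ (mul_nonneg hk (mul_pos hP hQ).le)]
  intro ik
  have h1 : ∀ i k, absv v (pt N (mu0 N) P i * pt N (mu0 N) Q k) ≤
      ptn N v (mu0 N) P * ptn N v (mu0 N) Q := by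
    intro i k
    rw [map_mul]
    exact mul_le_mul (absv_le_supn v _ i) (absv_le_supn v _ k) ((absv v).nonneg _) hP.le
  simp only [minorsPQ, sub_eq_add_neg]
  apply ULemma.absv_add_le v _ _ (mul_pos hP hQ).le (h1 _ _)
  rw [AbsoluteValue.map_neg]
  exact h1 _ _

theorem dl_eq_zero_iff (v : PlQ) (P Q : Pl N) : dl N v P Q = 0 ↔ P = Q := by
  have hP := ptn_mu0_pos v P
  have hQ := ptn_mu0_pos v Q
  rw [dl_def, div_eq_zero_iff, or_iff_left (mul_pos hP hQ).ne', supn_eq_zero_iff,
    minorsPQ_eq_zero_iff]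

theorem supn_ev_sec (v : PlQ) (P Q : Pl N) :
    supn v (fun ik => ev N (mu0 N) Q (sec N P ik)) =
      dl N v P Q * ptn N v (mu0 N) P * ptn N v (mu0 N) Q := by
  have hP := ptn_mu0_pos v P
  have hQ := ptn_mu0_pos v Q
  have h : (fun ik => ev N (mu0 N) Q (sec N P ik)) = minorsPQ P Q := by
    funext ik
    rw [ev_sec]
    rfl
  rw [h, dl_def, mul_assoc, div_mul_cancel₀ _ (mul_pos hP hQ).ne']

theorem finite_ptn_ne_one {k : ℕ} (hk : rc Kb (FN N) + 1 ≤ k) (P : Pl N) :
    {v : PlQ | ptn N v k P ≠ 1}.Finite :=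
  finite_supn_ne_one (pt_ne_zero hk P)

theorem finite_dl_ne_one {P Q : Pl N} (h : P ≠ Q) : {v : PlQ | dl N v P Q ≠ 1}.Finite := by
  have hmu := rc_add_two_le_mu0 (N := N)
  have h1 : {v : PlQ | supn v (minorsPQ P Q) ≠ 1}.Finite :=
    finite_supn_ne_one (fun h0 => h ((minorsPQ_eq_zero_iff P Q).mp h0))
  have h2 := finite_ptn_ne_one (k := mu0 N) (by omega) P
  have h3 := finite_ptn_ne_one (k := mu0 N) (by omega) Q
  refine ((h1.union h2).union h3).subset ?_
  intro v hv
  by_contra hcon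
  simp only [Set.mem_union, Set.mem_ofPred_eq, not_or, not_not] at hcon
  apply hv
  rw [dl_def, hcon.1.1, hcon.1.2, hcon.2]
  norm_num

end Fermat.Agent.S17
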