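import Fermat.Agent.S17.Curve.Basic

/-! # S17 / B2 : the cone over the curve is Zariski closed and consists of the multiples of the points `pt P` -/

set_option autoImplicit false
set_option synthInstance.maxHeartbeats 400000

open AlgebraicCurve ModularCurve IntermediateField

namespace Fermat.Agent.S17

open FF

variable {N : ℕ} [NeZero N]

namespace Cone

section General

variable {σ K S : Type*} [Fintype σ] [Field K] [Field S] [Algebra K S]

/-- evaluation of a homogeneous polynomial at a rescaled point -/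
theorem aeval_mul_of_isHomogeneous {p : MvPolynomial σ K} {n : ℕ} (hp : p.IsHomogeneous n)
    (c : S) (u : σ → S) :
    MvPolynomial.aeval (fun k => c * u k) p = c ^ n * MvPolynomial.aeval u p := by
  rw [MvPolynomial.aeval_def, MvPolynomial.aeval_def, MvPolynomial.eval₂_eq',
    MvPolynomial.eval₂_eq', Finset.mul_sum]
  refine Finset.sum_congr rfl fun d hd => ?_
  have hdn : ∑ i, d i = n := by
    rw [← Finsupp.degree_eq_sum, Finsupp.degree_apply]
    exact (hp.degree_eq_sum_deg_support hd).symm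
  simp_rw [mul_pow]
  rw [Finset.prod_mul_distrib, Finset.prod_pow_eq_pow_sum, hdn]
  ring

/-- homogenisation with respect to the variable `i` -/
noncomputable def hom (i : σ) (r : MvPolynomial σ K) : MvPolynomial σ K :=
  ∑ j ∈ Finset.range (r.totalDegree + 1),
    MvPolynomial.X i ^ (r.totalDegree - j) * MvPolynomial.homogeneousComponent j r

omit [Fintype σ] in
theorem hom_isHomogeneous (i : σ) (r : MvPolynomial σ K) :
    (hom i r).IsHomogeneous r.totalDegree := by
  refine MvPolynomial.IsHomogeneous.sum _ _ _ fun j hj => ?_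
  have hj' : j ≤ r.totalDegree := Nat.lt_succ_iff.mp (Finset.mem_range.mp hj)
  have := (MvPolynomial.isHomogeneous_X_pow (R := K) i (r.totalDegree - j)).mul
    (MvPolynomial.homogeneousComponent_isHomogeneous j r)
  rwa [Nat.sub_add_cancel hj'] at this

theorem aeval_hom (i : σ) (r : MvPolynomial σ K) (w : σ → S) (hw : w i ≠ 0) :
    MvPolynomial.aeval w (hom i r) =
      w i ^ r.totalDegree * MvPolynomial.aeval (fun k => w k / w i) r := by
  have hsum : MvPolynomial.aeval (fun k => w k / w i) r =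
      ∑ j ∈ Finset.range (r.totalDegree + 1),
        MvPolynomial.aeval (fun k => w k / w i) (MvPolynomial.homogeneousComponent j r) := by
    rw [← map_sum, MvPolynomial.sum_homogeneousComponent]
  rw [hsum, hom, map_sum, Finset.mul_sum]
  refine Finset.sum_congr rfl fun j hj => ?_
  have hj' : j ≤ r.totalDegree := Nat.lt_succ_iff.mp (Finset.mem_range.mp hj)
  have h1 := aeval_mul_of_isHomogeneous (MvPolynomial.homogeneousComponent_isHomogeneous j r)
    (w i) (fun k => w k / w i)
  have h2 : (fun k => w i * (w k / w i)) = w := by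
    funext k; field_simp
  rw [h2] at h1
  rw [map_mul, map_pow, MvPolynomial.aeval_X, h1, ← mul_assoc, ← pow_add, Nat.sub_add_cancel hj']

omit [Fintype σ] in
/-- an algebra hom on `K[u]` defined by prescribing the images of the generators -/
theorem exists_algHom_range (u : σ → S) (y : σ → K)
    (h : ∀ r : MvPolynomial σ K, MvPolynomial.aeval u r = 0 → MvPolynomial.aeval y r = 0) :
    ∃ ψ : (MvPolynomial.aeval (R := K) u).range →ₐ[K] K,
      ∀ r : MvPolynomial σ K, ψ ((MvPolynomial.aeval (R := K) u).rangeRestrict r)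
        = MvPolynomial.aeval y r := by
  set α := (MvPolynomial.aeval (R := K) u).rangeRestrict with hα
  have hsurj : Function.Surjective α := AlgHom.rangeRestrict_surjective _
  have hker : ∀ r ∈ RingHom.ker α, MvPolynomial.aeval y r = 0 := by
    intro r hr
    apply h
    have : α r = 0 := hr
    have h2 := congrArg Subtype.val this
    simpa [hα] using h2
  refine ⟨(Ideal.Quotient.liftₐ (RingHom.ker α) (MvPolynomial.aeval y) hker).comp
    (Ideal.quotientKerAlgEquivOfSurjective hsurj).symm.toAlgHom, fun r => ?_⟩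
  have : (Ideal.quotientKerAlgEquivOfSurjective hsurj).symm (α r)
      = Ideal.Quotient.mk (RingHom.ker α) r := by
    rw [AlgEquiv.symm_apply_eq]
    rfl
  rw [AlgHom.comp_apply]
  change (Ideal.Quotient.liftₐ (RingHom.ker α) (MvPolynomial.aeval y) hker)
    ((Ideal.quotientKerAlgEquivOfSurjective hsurj).symm (α r)) = _
  rw [this]
  rfl

/-- the lowest possible coefficient of a product of Laurent series -/
theorem coeff_mul_of_le (f g : LaurentSeries K) (a b : ℤ) (hf : ∀ n < a, f.coeff n = 0)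
    (hg : ∀ n < b, g.coeff n = 0) : (f * g).coeff (a + b) = f.coeff a * g.coeff b := by
  rw [HahnSeries.coeff_mul, Finset.sum_eq_single (a, b)]
  · rintro ⟨i, j⟩ hij hne
    rw [Finset.mem_antidiagonal] at hij
    obtain ⟨hi, hj, hsum⟩ := hij
    simp only at hi hj hsum
    have hia : a ≤ i := by
      by_contra hlt
      exact hi (hf i (not_le.mp hlt))
    have hjb : b ≤ j := by
      by_contra hlt
      exact hj (hg j (not_le.mp hlt))
    exfalso
    apply hne
    have h1 : i = a := by omega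
    have h2 : j = b := by omega
    rw [h1, h2]
  · intro hnot
    rw [Finset.mem_antidiagonal] at hnot
    by_cases h1 : f.coeff a = 0
    · simp [h1]
    by_cases h2 : g.coeff b = 0
    · simp [h2]
    exact absurd ⟨h1, h2, rfl⟩ hnot

end General

/-- the tuple of basis elements of `L_{μ₀}` -/
noncomputable abbrev bb (N : ℕ) [NeZero N] : Fin (mk N (mu0 N)) → FN N :=
  fun i => (bas N (mu0 N) i : FN N)

theorem ev_zero (k : ℕ) (P : Pl N) : ev N k P 0 = 0 := by
  have := ev_smul (k := k) P 0 (f := 0) (zero_mem _)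
  simpa using this

theorem ev_algebraMap (P : Pl N) (r : Kb) : ev N 0 P (algebraMap Kb (FN N) r) = r := by
  unfold ev
  split_ifs with h
  · have : ((algebraMap Kb (FN N) r : FN N) : LaurentSeries Kb) = HahnSeries.C r := by
      change algebraMap Kb (LaurentSeries Kb) r = _
      rw [HahnSeries.algebraMap_apply', PowerSeries.algebraMap_apply, HahnSeries.ofPowerSeries_C]
      rfl
    rw [this]
    simp
  · exact val_algebraMap _ _

theorem ev_aeval_linear (P : Pl N) {m : MvPolynomial (Fin (mk N (mu0 N))) Kb}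
    (hm : m ∈ MvPolynomial.homogeneousSubmodule (Fin (mk N (mu0 N))) Kb 1) :
    MvPolynomial.aeval (bb N) m ∈ Lk N (mu0 N) ∧
      ev N (mu0 N) P (MvPolynomial.aeval (bb N) m) = MvPolynomial.eval (pt N (mu0 N) P) m := by
  rw [MvPolynomial.homogeneousSubmodule_one_eq_span_X] at hm
  induction hm using Submodule.span_induction with
  | mem x hx =>
    obtain ⟨i, rfl⟩ := hx
    rw [MvPolynomial.aeval_X, MvPolynomial.eval_X]
    exact ⟨(bas N (mu0 N) i).2, rfl⟩
  | zero =>
    rw [map_zero, map_zero]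
    exact ⟨zero_mem _, ev_zero _ _⟩
  | add x y _ _ hx hy =>
    rw [map_add, map_add, ev_add P hx.1 hy.1, hx.2, hy.2]
    exact ⟨add_mem hx.1 hy.1, rfl⟩
  | smul a x _ hx =>
    rw [map_smul, ev_smul P a hx.1, hx.2, MvPolynomial.smul_eval]
    exact ⟨Submodule.smul_mem _ _ hx.1, rfl⟩

theorem ev_aeval_homog (P : Pl N) {n : ℕ} {p : MvPolynomial (Fin (mk N (mu0 N))) Kb}
    (hp : p.IsHomogeneous n) :
    MvPolynomial.aeval (bb N) p ∈ Lk N (mu0 N * n) ∧
      ev N (mu0 N * n) P (MvPolynomial.aeval (bb N) p) = MvPolynomial.eval (pt N (mu0 N) P) p := by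
  have hp' : p ∈ (MvPolynomial.homogeneousSubmodule (Fin (mk N (mu0 N))) Kb 1) ^ n := by
    rw [MvPolynomial.homogeneousSubmodule_one_pow]; exact hp
  clear hp
  induction hp' using Submodule.pow_induction_on_right' with
  | algebraMap r =>
    rw [MvPolynomial.algebraMap_eq, MvPolynomial.aeval_C, MvPolynomial.eval_C]
    refine ⟨?_, ev_algebraMap P r⟩
    rw [Algebra.algebraMap_eq_smul_one]
    exact Submodule.smul_mem _ _ (one_mem_Lk _)
  | add x y i _ _ hx hy =>
    rw [map_add, map_add, ev_add P hx.1 hy.1, hx.2, hy.2]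
    exact ⟨add_mem hx.1 hy.1, rfl⟩
  | mul_mem i x _ hx m hm =>
    have hm' := ev_aeval_linear P hm
    rw [map_mul, map_mul]
    refine ⟨mul_mem_Lk hx.1 hm'.1, ?_⟩
    rw [← hx.2, ← hm'.2]
    exact ev_mul P hx.1 hm'.1

theorem bb_ne_zero (i : Fin (mk N (mu0 N))) : bb N i ≠ 0 := by
  intro h
  exact (bas N (mu0 N)).ne_zero i (Subtype.ext h)

theorem bb_mem (i : Fin (mk N (mu0 N))) : bb N i ∈ Lk N (mu0 N) := (bas N (mu0 N) i).2

theorem two_le_mk : 2 ≤ mk N (mu0 N) := by
  have h1 : (mk N (mu0 N) : ℤ) = (mu0 N : ℕ) + 1 - genus Kb (FN N) :=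
    mk_eq (by have := rc_add_two_le_mu0 (N := N); omega)
  have h2 : (mk N ((rc Kb (FN N)).toNat + 1) : ℤ)
      = (((rc Kb (FN N)).toNat + 1 : ℕ) : ℤ) + 1 - genus Kb (FN N) :=
    mk_eq (by have := Int.self_le_toNat (rc Kb (FN N)); push_cast; omega)
  have h3 : 0 < mk N ((rc Kb (FN N)).toNat + 1) := by
    unfold mk
    rw [Module.finrank_pos_iff]
    exact ⟨⟨⟨1, one_mem_Lk _⟩, 0, fun h => one_ne_zero (congrArg Subtype.val h)⟩⟩
  have h4 : mu0 N = (rc Kb (FN N)).toNat + 2 := rfl
  rw [h4] at h1 ⊢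
  push_cast at h1 h2
  omega

/-- `b_k` is not a multiple of `b_i` -/
theorem bb_ne_smul {i k : Fin (mk N (mu0 N))} (hki : k ≠ i) (c : Kb) : bb N k ≠ c • bb N i := by
  intro h
  have h1 : bas N (mu0 N) k = c • bas N (mu0 N) i := Subtype.ext h
  have h2 := congrArg (fun z => (bas N (mu0 N)).repr z k) h1
  simp only [Module.Basis.repr_self, map_smul, Finsupp.smul_apply, Finsupp.single_apply,
    if_true, if_neg hki.symm, smul_zero] at h2
  exact one_ne_zero h2

/-- the key relation: if `b_k / b_i` is regular at `P` with value `y`, then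
`pt_k(P) = y pt_i(P)`. -/
theorem pt_eq_mul (P : Pl N) (i k : Fin (mk N (mu0 N))) (h0 : 0 ≤ P.ord (bb N k / bb N i)) :
    pt N (mu0 N) P k = val P (bb N k / bb N i) * pt N (mu0 N) P i := by
  have hmul : bb N k = (bb N k / bb N i) * bb N i := by
    rw [div_mul_cancel₀ _ (bb_ne_zero i)]
  have hi := (mem_Lk_iff.mp (bb_mem (N := N) i)).resolve_left (bb_ne_zero i)
  unfold pt ev
  split_ifs with hP
  · subst hP
    rw [val_infP h0]
    change (bb N k : LaurentSeries Kb).coeff _ = _ * (bb N i : LaurentSeries Kb).coeff _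
    have hc := coeff_mul_of_le ((bb N k / bb N i : FN N) : LaurentSeries Kb)
      (bb N i : LaurentSeries Kb) 0 (-(mu0 N : ℤ)) ?_ ?_
    · rw [zero_add] at hc
      rw [← hc]
      conv_lhs => rw [hmul]
      rfl
    · intro n hn
      by_cases hz : bb N k / bb N i = 0
      · rw [hz]; rfl
      · rw [infP_ord hz] at h0
        exact HahnSeries.coeff_eq_zero_of_lt_order (lt_of_lt_of_le hn h0)
    · intro n hn
      exact HahnSeries.coeff_eq_zero_of_lt_order (lt_of_lt_of_le hn hi.2)
  · change val P (bb N k) = _ * val P (bb N i)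
    rw [← val_mul P h0 (hi.1 P hP), ← hmul]

end Cone

theorem isZClosed_Chat : IsZClosed (Chat N) := by
  refine ⟨{f | ∃ p : MvPolynomial (Fin (mk N (mu0 N))) Kb, (∃ n, p.IsHomogeneous n) ∧
    MvPolynomial.aeval (fun i => (bas N (mu0 N) i : FN N)) p = 0 ∧
      f = fun x => MvPolynomial.eval x p}, ?_, ?_⟩
  · rintro f ⟨p, -, -, rfl⟩
    exact ⟨p, fun _ => rfl⟩
  · ext x
    constructor
    · rintro hx f ⟨p, hp, hp0, rfl⟩
      exact hx p hp hp0
    · intro hx p hp hp0
      exact hx _ ⟨p, hp, hp0, rfl⟩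

theorem smul_pt_mem_Chat (c : Kb) (P : Pl N) : c • pt N (mu0 N) P ∈ Chat N := by
  rintro p ⟨n, hp⟩ hp0
  have h1 := Cone.aeval_mul_of_isHomogeneous (S := Kb) hp c (pt N (mu0 N) P)
  rw [MvPolynomial.aeval_eq_eval, MvPolynomial.aeval_eq_eval] at h1
  have h2 := (Cone.ev_aeval_homog P hp).2
  have h3 : MvPolynomial.aeval (Cone.bb N) p = 0 := hp0
  rw [h3, Cone.ev_zero] at h2
  have h4 : (c • pt N (mu0 N) P) = fun k => c * pt N (mu0 N) P k := rfl
  rw [h4]
  rw [h1, ← h2, mul_zero]

/-- **Closedness.** `x_i ≠ 0`; `b_k / b_i ↦ x_k / x_i` is a well defined `K`-algebra hom on `K[b_k/b_i] ⊆ F` (homogenise a relation);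
its kernel is nonzero (the ring is not a field of constants: transcendence degree 1, target `K`);
`FF.exists_place_of_algHom` gives a place `P` with `val_P (b_k / b_i) = x_k / x_i`; then `pt P ∼ x`
(treat `P = ∞` and `P ≠ ∞` separately). -/
theorem exists_of_mem_Chat {x : Fin (mk N (mu0 N)) → Kb} (hx : x ∈ Chat N) (hx0 : x ≠ 0) :
    ∃ (P : Pl N) (c : Kb), c ≠ 0 ∧ x = c • pt N (mu0 N) P := by
  obtain ⟨i, hi⟩ := Function.ne_iff.mp hx0
  have hi : x i ≠ 0 := hi
  have hbi := Cone.bb_ne_zero (N := N) i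
  -- the algebra hom
  obtain ⟨ψ, hψ⟩ := Cone.exists_algHom_range (K := Kb) (S := FN N)
    (fun k => Cone.bb N k / Cone.bb N i) (fun k => x k / x i) (by
      intro r hr
      have h1 := Cone.aeval_hom i r (Cone.bb N) hbi
      rw [hr, mul_zero] at h1
      have h2 := hx _ ⟨_, Cone.hom_isHomogeneous i r⟩ h1
      have h3 := Cone.aeval_hom (S := Kb) i r x hi
      rw [MvPolynomial.aeval_eq_eval] at h3
      rw [h3] at h2
      exact (mul_eq_zero.mp h2).resolve_left (pow_ne_zero _ hi))
  -- a nonzero element of the kernel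
  obtain ⟨k₀, hk₀⟩ := Fintype.exists_ne_of_one_lt_card
    (by rw [Fintype.card_fin]; exact Cone.two_le_mk (N := N)) i
  set α := (MvPolynomial.aeval (R := Kb) (fun k => Cone.bb N k / Cone.bb N i)).rangeRestrict
    with hα
  have hαX : ∀ k, ((α (MvPolynomial.X k) : _) : FN N) = Cone.bb N k / Cone.bb N i := by
    intro k
    simp [hα]
  have hψX : ∀ k, ψ (α (MvPolynomial.X k)) = x k / x i := by
    intro k
    rw [hψ, MvPolynomial.aeval_X]
  obtain ⟨P, hP⟩ := exists_place_of_algHom _ ψ
    ⟨α (MvPolynomial.X k₀ - MvPolynomial.C (x k₀ / x i)), by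
      intro h
      have h1 := congrArg Subtype.val h
      have h2 : Cone.bb N k₀ / Cone.bb N i - algebraMap Kb (FN N) (x k₀ / x i) = 0 := by
        simpa [hα] using h1
      apply Cone.bb_ne_smul hk₀ (x k₀ / x i)
      rw [sub_eq_zero, div_eq_iff hbi] at h2
      rw [h2, Algebra.smul_def], by
      rw [hψ, map_sub, MvPolynomial.aeval_X, MvPolynomial.aeval_C]
      simp⟩
  have hrel : ∀ k, pt N (mu0 N) P k = x k / x i * pt N (mu0 N) P i := by
    intro k
    have h1 := hP (α (MvPolynomial.X k))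
    rw [hαX, hψX] at h1
    rw [Cone.pt_eq_mul P i k h1.1, h1.2]
  have hpti : pt N (mu0 N) P i ≠ 0 := by
    intro h0
    apply pt_ne_zero (N := N) (k := mu0 N) (by have := rc_add_two_le_mu0 (N := N); omega) P
    funext k
    rw [hrel k, h0, mul_zero]
    rfl
  refine ⟨P, x i / pt N (mu0 N) P i, div_ne_zero hi hpti, ?_⟩
  funext k
  rw [Pi.smul_apply, smul_eq_mul, hrel k]
  field_simp

end Fermat.Agent.S17
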