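import Fermat.Agent.S17.Curve.Base
import Fermat.Agent.S17.C.Siegel
import Fermat.Agent.S17.C.ConstRank

/-!
# S17 : arithmetic set-up on `F = F_{ℚ̄}` : the spaces `L_k = L(k∞)`, rational bases, evaluation functionals, points of the cone,
norms of sections, `v`-adic distance of places.
-/

set_option autoImplicit false

open AlgebraicCurve ModularCurve IntermediateField

namespace Fermat.Agent.S17

open FF

variable (N : ℕ) [NeZero N]

/-- the function field of `X₀(N)` over `ℚ̄` -/
noncomputable abbrev FN : IntermediateField Kb (LaurentSeries Kb) := FL Kb N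

/-- places of `F` -/
abbrev Pl : Type := Place Kb (FN N)

/-- divisors of `F` -/
abbrev Dv : Type := Divisor Kb (FN N)

/-- the absolute Galois group of `ℚ` -/
abbrev GQ : Type := Kb ≃ₐ[ℚ] Kb

/-- the cusp `∞` -/
noncomputable abbrev oo : Pl N := infP Kb N

/-- the divisor `k∞` -/
noncomputable def koo (k : ℕ) : Dv N := (k : ℤ) • pdiv (oo N)

/-- `L_k = L(k∞)` -/
noncomputable def Lk (k : ℕ) : Submodule Kb (FN N) := LSp (koo N k)

/-- `m_k = dim L_k` -/
noncomputable def mk (k : ℕ) : ℕ := Module.finrank Kb (Lk N k)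

instance (k : ℕ) : FiniteDimensional Kb (Lk N k) := finiteDimensional_LSp _

/-- a divisor is rational if it is Galois stable -/
def IsRatD (D : Dv N) : Prop := ∀ σ : GQ, gal Kb N σ • D = D

/-- a function is rational if it is Galois fixed (i.e. has rational Laurent coefficients) -/
def IsRatF (f : FN N) : Prop := ∀ σ : GQ, gal Kb N σ • f = f

theorem koo_isRat (k : ℕ) : IsRatD N (koo N k) := by
  intro σ
  rw [koo, smul_comm, SemilinearAut.smul_single, gal_smul_infP]

theorem exists_bas (k : ℕ) : ∃ b : Module.Basis (Fin (mk N k)) Kb (Lk N k),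
    ∀ i, IsRatF N (b i : FN N) := by
  haveI : FiniteDimensional Kb (Lk N k) := finiteDimensional_LSp _
  obtain ⟨b, hb⟩ := exists_fixed_basis (L := Kb) (N := N) Set.univ (Lk N k) (by
    intro σ _ f hf
    have := gal_smul_mem_LSp σ hf
    rwa [koo_isRat N k σ] at this)
  exact ⟨b, fun i σ => hb σ (Set.mem_univ _) i⟩

/-- the fixed rational basis of `L_k` -/
noncomputable def bas (k : ℕ) : Module.Basis (Fin (mk N k)) Kb (Lk N k) := (exists_bas N k).choose

theorem bas_isRat (k : ℕ) (i : Fin (mk N k)) : IsRatF N (bas N k i : FN N) :=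
  (exists_bas N k).choose_spec i

/-- coordinates of `f ∈ L_k` in the fixed basis (`0` if `f ∉ L_k`) -/
noncomputable def crd (k : ℕ) (f : FN N) : Fin (mk N k) → Kb :=
  open Classical in if h : f ∈ Lk N k then ⇑((bas N k).repr ⟨f, h⟩) else 0

/-- the `v`-norm of a section `f ∈ L_k` -/
noncomputable def nrm (v : PlQ) (k : ℕ) (f : FN N) : ℝ := supn v (crd N k f)

/-- height of a section -/
noncomputable def hsec (k : ℕ) (f : FN N) : ℝ := hvec (crd N k f)

/-- evaluation of sections of `O(k∞)`: `f ↦ f(P)` for `P ≠ ∞`, `f ↦ coeff_{q^{-k}} f` for `P = ∞`. -/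
noncomputable def ev (k : ℕ) (P : Pl N) (f : FN N) : Kb :=
  open Classical in if P = oo N then (f : LaurentSeries Kb).coeff (-(k : ℤ)) else val P f

/-- the point of the cone over the curve (embedding by `L_k`) attached to `P` -/
noncomputable def pt (k : ℕ) (P : Pl N) : Fin (mk N k) → Kb := fun i => ev N k P (bas N k i)

/-- `|P|_{k,v}` -/
noncomputable def ptn (v : PlQ) (k : ℕ) (P : Pl N) : ℝ := supn v (pt N k P)

/-- the level of the reference embedding -/
noncomputable def mu0 : ℕ := (rc Kb (FN N)).toNat + 2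

/-- the section `s_{P;i,k} = pt_i(P) b_k - pt_k(P) b_i ∈ L(μ₀∞ - P)`; more generally for a vector `x` in place of `pt P`. -/
noncomputable def secx (x : Fin (mk N (mu0 N)) → Kb) (ik : Fin (mk N (mu0 N)) × Fin (mk N (mu0 N))) : FN N :=
  x ik.1 • (bas N (mu0 N) ik.2 : FN N) - x ik.2 • (bas N (mu0 N) ik.1 : FN N)

noncomputable abbrev sec (P : Pl N) (ik : Fin (mk N (mu0 N)) × Fin (mk N (mu0 N))) : FN N :=
  secx N (pt N (mu0 N) P) ik

/-- the (projective, chordal) `v`-adic distance of two places -/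
noncomputable def dl (v : PlQ) (P Q : Pl N) : ℝ :=
  supn v (fun ik : Fin (mk N (mu0 N)) × Fin (mk N (mu0 N)) =>
    pt N (mu0 N) P ik.1 * pt N (mu0 N) Q ik.2 - pt N (mu0 N) P ik.2 * pt N (mu0 N) Q ik.1) /
  (ptn N v (mu0 N) P * ptn N v (mu0 N) Q)

/-- the zero divisor `div f + k∞` of a section `f ∈ L_k` -/
noncomputable def div0 (k : ℕ) (f : FN N) : Dv N := divf f + koo N k

/-- the cone over the curve: common zeros of all homogeneous relations between the basis elements of `L_{μ₀}`. -/
def Chat : Set (Fin (mk N (mu0 N)) → Kb) :=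
  {x | ∀ p : MvPolynomial (Fin (mk N (mu0 N))) Kb, (∃ n, p.IsHomogeneous n) →
    MvPolynomial.aeval (fun i => (bas N (mu0 N) i : FN N)) p = 0 → MvPolynomial.eval x p = 0}

/-- local pairing of divisors: `∑ D(P) D'(Q) (-log dl_v(P,Q))` -/
noncomputable def lpair (v : PlQ) (D D' : Dv N) : ℝ :=
  D.sum fun P a => D'.sum fun Q b => (a : ℝ) * (b : ℝ) * (- Real.log (dl N v P Q))

/-- global pairing -/
noncomputable def gpair (D D' : Dv N) : ℝ := ∑ᶠ v : PlQ, lpair N v D D'

/-- height of an effective divisor relative to `L_k`: `∑_v ∑_P E(P) log |P|_{k,v}` -/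
noncomputable def hdiv (k : ℕ) (E : Dv N) : ℝ :=
  ∑ᶠ v : PlQ, E.sum fun P a => (a : ℝ) * Real.log (ptn N v k P)

/-- the Mordell-Weil group -/
noncomputable abbrev MW : AddSubgroup (JZero N) := FixedPoints.addSubgroup GQ (JZero N)

/-- the class of a degree zero divisor -/
noncomputable def cls (D : Dv N) (hD : Divisor.degree D = 0) : JZero N := Pic0.mk ⟨D, hD⟩

end Fermat.Agent.S17
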