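import Fermat.Agent.S17.Curve.Basic

/-! # S17 / U4, algebraic part : the spanning family of `L((d μ₀ + k₀)∞ - ∑ P_j)` -/

set_option autoImplicit false

open AlgebraicCurve ModularCurve IntermediateField

namespace Fermat.Agent.S17

open FF

variable {N : ℕ} [NeZero N]

/-- index set of the spanning family of `L((d μ₀ + k₀)∞ - ∑ P_j)` -/
abbrev Gam (N : ℕ) [NeZero N] (d k0 : ℕ) : Type :=
  (Fin d → Fin (mk N (mu0 N)) × Fin (mk N (mu0 N))) × Fin (mk N k0)

/-- the spanning family, for arbitrary vectors `x_j` in place of `pt P_j` -/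
noncomputable def famx (d k0 : ℕ) (x : Fin d → Fin (mk N (mu0 N)) → Kb) (γ : Gam N d k0) : FN N :=
  (∏ j, secx N (x j) (γ.1 j)) * (bas N k0 γ.2 : FN N)

noncomputable abbrev fam (d k0 : ℕ) (P : Fin d → Pl N) (γ : Gam N d k0) : FN N :=
  famx d k0 (fun j => pt N (mu0 N) (P j)) γ

namespace SpanFam

open scoped Pointwise

theorem span_bas (k : ℕ) :
    Submodule.span Kb (Set.range fun i => (bas N k i : FN N)) = Lk N k := by
  have h := (bas N k).span_eq
  have h2 := congrArg (Submodule.map (Lk N k).subtype) h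
  rw [Submodule.map_span, Submodule.map_top, Submodule.range_subtype, ← Set.range_comp] at h2
  exact h2

theorem range_famx_succ (d k0 : ℕ) (x : Fin (d + 1) → Fin (mk N (mu0 N)) → Kb) :
    Set.range (famx d.succ k0 x) =
      Set.range (secx N (x 0)) * Set.range (famx d k0 fun j => x j.succ) := by
  ext f
  constructor
  · rintro ⟨γ, rfl⟩
    refine Set.mem_mul.mpr ⟨_, ⟨γ.1 0, rfl⟩, _, ⟨(fun j => γ.1 j.succ, γ.2), rfl⟩, ?_⟩
    simp only [famx, Fin.prod_univ_succ, mul_assoc]
  · intro hf
    obtain ⟨_, ⟨ik, rfl⟩, _, ⟨γ, rfl⟩, rfl⟩ := Set.mem_mul.mp hf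
    refine ⟨(Fin.cons ik γ.1, γ.2), ?_⟩
    simp only [famx, Fin.prod_univ_succ, Fin.cons_zero, Fin.cons_succ, mul_assoc]

theorem tdiv_succ {d : ℕ} (P : Fin (d + 1) → Pl N) :
    tdiv P = pdiv (P 0) + tdiv fun j => P j.succ := by
  simp only [tdiv, Fin.sum_univ_succ]

end SpanFam

open SpanFam

open scoped Pointwise in
/-- algebraic part (A6 + induction on `d`) -/
theorem span_fam (d : ℕ) {k0 : ℕ} (hk0 : rc Kb (FN N) + mu0 N ≤ k0) (P : Fin d → Pl N) :
    Submodule.span Kb (Set.range (fam d k0 P)) = LSp (koo N (d * mu0 N + k0) - tdiv P) := by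
  induction d with
  | zero =>
    have h1 : Set.range (fam 0 k0 P) = Set.range fun i => (bas N k0 i : FN N) := by
      ext f
      constructor
      · rintro ⟨γ, rfl⟩
        exact ⟨γ.2, by simp [famx]⟩
      · rintro ⟨i, rfl⟩
        exact ⟨(fun j => j.elim0, i), by simp [famx]⟩
    rw [h1, span_bas]
    simp [tdiv, Lk]
  | succ d ih =>
    have hmu := rc_add_two_le_mu0 (N := N)
    have hrc := rc_nonneg (K := Kb) (F := FN N)
    have h1 : Set.range (fam (d + 1) k0 P) =
        Set.range (sec N (P 0)) * Set.range (fam d k0 fun j => P j.succ) :=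
      range_famx_succ d k0 _
    rw [h1, ← Submodule.span_mul_span, span_sec, ih, LSp_mul_LSp]
    · congr 1
      rw [tdiv_succ, show (d + 1) * mu0 N + k0 = mu0 N + (d * mu0 N + k0) by ring,
        koo_add (mu0 N) (d * mu0 N + k0)]
      abel
    · rw [map_sub, degree_koo, LBasic.degree_pdiv]
      omega
    · rw [map_sub, map_sub, degree_koo, degree_koo, LBasic.degree_pdiv, degree_tdiv]
      push_cast
      have h2 : (d : ℤ) ≤ d * mu0 N := by
        have : (1 : ℤ) ≤ mu0 N := by omega
        nlinarith [Int.natCast_nonneg d]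
      omega

end Fermat.Agent.S17
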