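import Fermat.Agent.S17.Curve.Basic

/-! # S17 / Part U0 : trivial uniform estimates (structure constants) -/

set_option autoImplicit false

open AlgebraicCurve ModularCurve IntermediateField

namespace Fermat.Agent.S17

open FF

variable {N : ℕ} [NeZero N]

namespace U0

/-! ### general bounds for linear and bilinear maps in coordinates -/

section General

variable {ι κ κ' : Type*} [Fintype ι] [Fintype κ] [Fintype κ']

theorem supn_of_isEmpty [IsEmpty ι] (v : PlQ) (t : ι → Kb) : supn v t = 0 :=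
  (supn_eq_zero_iff v t).mpr (Subsingleton.elim _ _)

theorem supn_mul_supn_le (v : PlQ) (x : κ → Kb) (y : κ' → Kb) {r : ℝ} (hr : 0 ≤ r)
    (h : ∀ i j, absv v (x i) * absv v (y j) ≤ r) : supn v x * supn v y ≤ r := by
  rcases isEmpty_or_nonempty κ with h1 | h1
  · rw [supn_of_isEmpty, zero_mul]; exact hr
  rcases isEmpty_or_nonempty κ' with h2 | h2
  · rw [supn_of_isEmpty v y, mul_zero]; exact hr
  obtain ⟨i, hi⟩ := exists_absv_eq_supn v x
  obtain ⟨j, hj⟩ := exists_absv_eq_supn v y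
  rw [← hi, ← hj]
  exact h i j

/-- one constant family dominating a finite family of algebraic numbers -/
theorem exists_CF_ge_fam (a : ι → Kb) : ∃ c : CF, ∀ i v, absv v (a i) ≤ c v := by
  choose c hc using fun i => exists_CF_ge (a i)
  obtain ⟨C, hC⟩ := ConstRank.exists_CF_ge_all Finset.univ c
  exact ⟨C, fun i v => (hc i v).trans (hC i (Finset.mem_univ i) v)⟩

/-- a matrix is bounded by a constant family -/
theorem exists_CF_linear (M : ι → κ → Kb) : ∃ c : CF, ∀ v, ∀ x : κ → Kb,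
    supn v (fun i => ∑ k, M i k * x k) ≤ c v * supn v x := by
  obtain ⟨C, hC⟩ := exists_CF_ge_fam (fun p : ι × κ => M p.1 p.2)
  refine ⟨CF.ofNat (Fintype.card κ) * C, fun v x => ?_⟩
  have h0 : 0 ≤ C v * supn v x := mul_nonneg (C.pos v).le (supn_nonneg v x)
  rw [supn_le_iff v _ (mul_nonneg ((CF.ofNat (Fintype.card κ) * C).pos v).le (supn_nonneg v x))]
  intro i
  have := absv_sum_le v Finset.univ (fun k => M i k * x k) h0 (by
    intro k _
    rw [map_mul]
    exact mul_le_mul (hC (i, k) v) (absv_le_supn v x k) ((absv v).nonneg _) (C.pos v).le)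
  rw [CF.mul_apply, mul_assoc]
  exact this

/-- a bilinear map is bounded by a constant family -/
theorem exists_CF_bilinear (T : ι → κ → κ' → Kb) : ∃ c : CF, ∀ v, ∀ (x : κ → Kb) (y : κ' → Kb),
    supn v (fun i => ∑ k, ∑ k', T i k k' * (x k * y k')) ≤ c v * (supn v x * supn v y) := by
  obtain ⟨c, hc⟩ := exists_CF_linear (fun (i : ι) (p : κ × κ') => T i p.1 p.2)
  refine ⟨c, fun v x y => ?_⟩
  have h1 := hc v (fun p : κ × κ' => x p.1 * y p.2)
  have h2 : supn v (fun p : κ × κ' => x p.1 * y p.2) ≤ supn v x * supn v y := by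
    rw [supn_le_iff v _ (mul_nonneg (supn_nonneg v x) (supn_nonneg v y))]
    intro p
    rw [map_mul]
    exact mul_le_mul (absv_le_supn v x _) (absv_le_supn v y _) ((absv v).nonneg _)
      (supn_nonneg v x)
  have h3 : (fun i => ∑ k, ∑ k', T i k k' * (x k * y k')) =
      fun i => ∑ p : κ × κ', T i p.1 p.2 * (x p.1 * y p.2) := by
    funext i
    rw [Fintype.sum_prod_type]
  rw [h3]
  exact h1.trans (mul_le_mul_of_nonneg_left h2 (c.pos v).le)

end General

/-! ### sums -/

theorem crd_zero (k : ℕ) : crd N k (0 : FN N) = 0 :=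
  (crd_eq_zero_iff (Submodule.zero_mem _)).mpr rfl

theorem crd_finset_sum {α : Type*} (k : ℕ) (s : Finset α) (f : α → FN N)
    (hf : ∀ a ∈ s, f a ∈ Lk N k) : crd N k (∑ a ∈ s, f a) = ∑ a ∈ s, crd N k (f a) := by
  classical
  induction s using Finset.induction_on with
  | empty => simp [crd_zero]
  | insert a s ha ih =>
    rw [Finset.sum_insert ha, Finset.sum_insert ha,
      crd_add (hf a (Finset.mem_insert_self a s))
        (Submodule.sum_mem _ fun b hb => hf b (Finset.mem_insert_of_mem hb)),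
      ih fun b hb => hf b (Finset.mem_insert_of_mem hb)]

theorem ev_zero (k : ℕ) (P : Pl N) : ev N k P (0 : FN N) = 0 := by
  have := ev_smul (k := k) P 0 (Submodule.zero_mem (Lk N k))
  simpa using this

theorem ev_finset_sum {α : Type*} (k : ℕ) (P : Pl N) (s : Finset α) (f : α → FN N)
    (hf : ∀ a ∈ s, f a ∈ Lk N k) : ev N k P (∑ a ∈ s, f a) = ∑ a ∈ s, ev N k P (f a) := by
  classical
  induction s using Finset.induction_on with
  | empty => simp [ev_zero]
  | insert a s ha ih =>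
    rw [Finset.sum_insert ha, Finset.sum_insert ha,
      ev_add P (hf a (Finset.mem_insert_self a s))
        (Submodule.sum_mem _ fun b hb => hf b (Finset.mem_insert_of_mem hb)),
      ih fun b hb => hf b (Finset.mem_insert_of_mem hb)]

theorem bas_mem (k : ℕ) (i : Fin (mk N k)) : (bas N k i : FN N) ∈ Lk N k := (bas N k i).2

theorem bas_mul_mem (k k' : ℕ) (i : Fin (mk N k)) (j : Fin (mk N k')) :
    (bas N k i : FN N) * (bas N k' j : FN N) ∈ Lk N (k + k') :=
  mul_mem_Lk (bas_mem k i) (bas_mem k' j)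

/-- structure constants of the multiplication `L_k × L_k' → L_{k+k'}` -/
noncomputable def sc (N : ℕ) [NeZero N] (k k' : ℕ) (l : Fin (mk N (k + k'))) (i : Fin (mk N k))
    (j : Fin (mk N k')) : Kb :=
  crd N (k + k') ((bas N k i : FN N) * (bas N k' j : FN N)) l

theorem mul_eq_sum {k k' : ℕ} {f g : FN N} (hf : f ∈ Lk N k) (hg : g ∈ Lk N k') :
    f * g = ∑ i, ∑ j, (crd N k f i * crd N k' g j) •
      ((bas N k i : FN N) * (bas N k' j : FN N)) := by
  conv_lhs => rw [eq_sum_crd hf, eq_sum_crd hg]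
  rw [Finset.sum_mul_sum]
  refine Finset.sum_congr rfl fun i _ => Finset.sum_congr rfl fun j _ => ?_
  rw [smul_mul_smul_comm]

theorem crd_mul {k k' : ℕ} {f g : FN N} (hf : f ∈ Lk N k) (hg : g ∈ Lk N k')
    (l : Fin (mk N (k + k'))) :
    crd N (k + k') (f * g) l = ∑ i, ∑ j, sc N k k' l i j * (crd N k f i * crd N k' g j) := by
  rw [mul_eq_sum hf hg, crd_finset_sum _ _ _ fun i _ => Submodule.sum_mem _ fun j _ =>
    Submodule.smul_mem _ _ (bas_mul_mem k k' i j), Finset.sum_apply]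
  refine Finset.sum_congr rfl fun i _ => ?_
  rw [crd_finset_sum _ _ _ fun j _ => Submodule.smul_mem _ _ (bas_mul_mem k k' i j),
    Finset.sum_apply]
  refine Finset.sum_congr rfl fun j _ => ?_
  rw [crd_smul, Pi.smul_apply, smul_eq_mul, sc, mul_comm]

theorem crd_bas (k : ℕ) (i : Fin (mk N k)) : crd N k (bas N k i : FN N) = Pi.single i 1 := by
  classical
  have h := crd_sum (N := N) k (Pi.single i 1)
  rw [← h]
  congr 1
  rw [Finset.sum_eq_single i (fun j _ hj => by rw [Pi.single_eq_of_ne hj, zero_smul])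
    (fun h => absurd (Finset.mem_univ i) h), Pi.single_eq_same, one_smul]

theorem nrm_bas (v : PlQ) (k : ℕ) (i : Fin (mk N k)) : nrm N v k (bas N k i : FN N) = 1 := by
  classical
  rw [nrm, crd_bas]
  apply le_antisymm
  · rw [supn_le_iff v _ zero_le_one]
    intro j
    by_cases h : j = i
    · subst h; rw [Pi.single_eq_same, map_one]
    · rw [Pi.single_eq_of_ne h, map_zero]; exact zero_le_one
  · have := absv_le_supn v (Pi.single i 1 : Fin (mk N k) → Kb) i
    rwa [Pi.single_eq_same, map_one] at this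

theorem nrm_nonneg (v : PlQ) (k : ℕ) (f : FN N) : 0 ≤ nrm N v k f := supn_nonneg _ _

theorem ptn_nonneg (v : PlQ) (k : ℕ) (P : Pl N) : 0 ≤ ptn N v k P := supn_nonneg _ _

end U0

open U0

/-! ### U0 : trivial estimates (structure constants) -/

theorem U0_mul (k k' : ℕ) : ∃ c : CF, ∀ v, ∀ f ∈ Lk N k, ∀ g ∈ Lk N k',
    nrm N v (k + k') (f * g) ≤ c v * (nrm N v k f * nrm N v k' g) := by
  obtain ⟨c, hc⟩ := exists_CF_bilinear (sc N k k')
  refine ⟨c, fun v f hf g hg => ?_⟩
  have := hc v (crd N k f) (crd N k' g)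
  rw [nrm, show crd N (k + k') (f * g) = fun l => ∑ i, ∑ j, sc N k k' l i j *
    (crd N k f i * crd N k' g j) from funext fun l => crd_mul hf hg l]
  exact this

theorem U0_ev (v : PlQ) (k : ℕ) (Q : Pl N) {f : FN N} (hf : f ∈ Lk N k) :
    absv v (ev N k Q f) ≤ kap v (mk N k) * (nrm N v k f * ptn N v k Q) := by
  rw [ev_eq_sum Q hf]
  have := absv_sum_le v Finset.univ (fun i => crd N k f i * pt N k Q i)
    (mul_nonneg (nrm_nonneg v k f) (ptn_nonneg v k Q)) (by
      intro i _
      rw [map_mul]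
      exact mul_le_mul (absv_le_supn v _ i) (absv_le_supn v _ i) ((absv v).nonneg _)
        (nrm_nonneg v k f))
  rwa [Finset.card_univ, Fintype.card_fin] at this

theorem U0_ptn_mul_le (k k' : ℕ) : ∃ c : CF, ∀ v, ∀ Q : Pl N,
    ptn N v k Q * ptn N v k' Q ≤ c v * ptn N v (k + k') Q := by
  obtain ⟨c, hc⟩ := exists_CF_linear
    (fun (p : Fin (mk N k) × Fin (mk N k')) (l : Fin (mk N (k + k'))) => sc N k k' l p.1 p.2)
  refine ⟨c, fun v Q => ?_⟩
  have h0 : 0 ≤ c v * ptn N v (k + k') Q := mul_nonneg (c.pos v).le (ptn_nonneg _ _ _)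
  refine supn_mul_supn_le v _ _ h0 fun i j => ?_
  have h1 := (absv_le_supn v _ (i, j)).trans (hc v (pt N (k + k') Q))
  refine le_trans (le_of_eq ?_) h1
  rw [← map_mul]
  congr 1
  show ev N k Q (bas N k i) * ev N k' Q (bas N k' j) = _
  rw [← ev_mul Q (bas_mem k i) (bas_mem k' j), ev_eq_sum Q (bas_mul_mem k k' i j)]
  rfl

theorem U0_ptn_le_mul {k k' : ℕ} (hk : rc Kb (FN N) + 1 ≤ k) (hk' : rc Kb (FN N) + k ≤ k') :
    ∃ c : CF, ∀ v, ∀ Q : Pl N, ptn N v (k + k') Q ≤ c v * (ptn N v k Q * ptn N v k' Q) := by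
  have key : ∀ B ∈ Lk N (k + k'), ∃ t : Fin (mk N k) → Fin (mk N k') → Kb,
      B = ∑ i, ∑ j, t i j • ((bas N k i : FN N) * (bas N k' j : FN N)) := by
    intro B hB
    rw [← Lk_mul_Lk hk hk'] at hB
    induction hB using Submodule.mul_induction_on' with
    | mem_mul_mem f hf g hg => exact ⟨_, mul_eq_sum hf hg⟩
    | add x _ y _ hx hy =>
      obtain ⟨t, ht⟩ := hx
      obtain ⟨s, hs⟩ := hy
      refine ⟨fun i j => t i j + s i j, ?_⟩
      rw [ht, hs, ← Finset.sum_add_distrib]
      refine Finset.sum_congr rfl fun i _ => ?_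
      rw [← Finset.sum_add_distrib]
      exact Finset.sum_congr rfl fun j _ => (add_smul _ _ _).symm
  choose t ht using fun l : Fin (mk N (k + k')) => key _ (bas_mem (k + k') l)
  obtain ⟨c, hc⟩ := exists_CF_bilinear t
  refine ⟨c, fun v Q => ?_⟩
  refine le_trans (le_of_eq ?_) (hc v (pt N k Q) (pt N k' Q))
  rw [ptn]
  congr 1
  funext l
  show ev N (k + k') Q (bas N (k + k') l) = _
  conv_lhs => rw [ht l]
  rw [ev_finset_sum _ _ _ _ fun i _ => Submodule.sum_mem _ fun j _ =>
    Submodule.smul_mem _ _ (bas_mul_mem k k' i j)]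
  refine Finset.sum_congr rfl fun i _ => ?_
  rw [ev_finset_sum _ _ _ _ fun j _ => Submodule.smul_mem _ _ (bas_mul_mem k k' i j)]
  refine Finset.sum_congr rfl fun j _ => ?_
  rw [ev_smul Q _ (bas_mul_mem k k' i j), ev_mul Q (bas_mem k i) (bas_mem k' j)]
  rfl

/-- change of level: `L_k ⊆ L_k'` -/
theorem U0_nrm_mono {k k' : ℕ} (h : k ≤ k') : ∃ c : CF, ∀ v, ∀ f ∈ Lk N k,
    nrm N v k' f ≤ c v * nrm N v k f ∧ nrm N v k f ≤ c v * nrm N v k' f := by
  obtain ⟨c, hc⟩ := exists_CF_linear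
    (fun (l : Fin (mk N k')) (i : Fin (mk N k)) => crd N k' (bas N k i : FN N) l)
  -- a retraction `L_k' → L_k`
  obtain ⟨r, hr⟩ := LinearMap.exists_leftInverse_of_injective
    (Submodule.inclusion (Lk_mono (N := N) h)) (by
      rw [LinearMap.ker_eq_bot]; exact Submodule.inclusion_injective _)
  obtain ⟨d, hd⟩ := exists_CF_linear
    (fun (i : Fin (mk N k)) (l : Fin (mk N k')) => crd N k (r (bas N k' l) : FN N) i)
  refine ⟨c * d, fun v f hf => ⟨?_, ?_⟩⟩
  · have h1 : crd N k' f = fun l => ∑ i, crd N k' (bas N k i : FN N) l * crd N k f i := by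
      conv_lhs => rw [eq_sum_crd hf]
      rw [crd_finset_sum _ _ _ fun i _ => Submodule.smul_mem _ _ (Lk_mono h (bas_mem k i))]
      funext l
      rw [Finset.sum_apply]
      refine Finset.sum_congr rfl fun i _ => ?_
      rw [crd_smul, Pi.smul_apply, smul_eq_mul, mul_comm]
    rw [nrm, h1]
    refine (hc v (crd N k f)).trans ?_
    rw [CF.mul_apply]
    exact mul_le_mul_of_nonneg_right (le_mul_of_one_le_right (c.pos v).le (d.one_le v))
      (supn_nonneg _ _)
  · have hf' : f ∈ Lk N k' := Lk_mono h hf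
    have h2 : f = ∑ l, crd N k' f l • (r (bas N k' l) : FN N) := by
      let R : Lk N k' →ₗ[Kb] FN N := (Lk N k).subtype ∘ₗ r
      have e1 := congrArg R ((bas N k').sum_repr ⟨f, hf'⟩)
      have e2 : R ⟨f, hf'⟩ = f := by
        have h3 := LinearMap.congr_fun hr ⟨f, hf⟩
        have h4 : Submodule.inclusion (Lk_mono (N := N) h) ⟨f, hf⟩ = ⟨f, hf'⟩ := rfl
        rw [LinearMap.comp_apply, h4] at h3
        show ((r ⟨f, hf'⟩ : Lk N k) : FN N) = f
        rw [h3]
        rfl
      rw [e2, map_sum] at e1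
      refine e1.symm.trans (Finset.sum_congr rfl fun l _ => ?_)
      rw [LinearMap.map_smul R, crd, dif_pos hf']
      rfl
    have h1 : crd N k f = fun i => ∑ l, crd N k (r (bas N k' l) : FN N) i * crd N k' f l := by
      conv_lhs => rw [h2]
      rw [crd_finset_sum _ _ _ fun l _ => Submodule.smul_mem _ _ (r (bas N k' l)).2]
      funext i
      rw [Finset.sum_apply]
      refine Finset.sum_congr rfl fun l _ => ?_
      rw [crd_smul, Pi.smul_apply, smul_eq_mul, mul_comm]
    rw [nrm, h1]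
    refine (hd v (crd N k' f)).trans ?_
    rw [CF.mul_apply]
    exact mul_le_mul_of_nonneg_right (le_mul_of_one_le_left (d.pos v).le (c.one_le v))
      (supn_nonneg _ _)

/-! ### the spanning family of `L((d μ₀ + k₀)∞ - ∑ P_j)` -/

namespace U0

theorem nrm_secx_le (v : PlQ) (x : Fin (mk N (mu0 N)) → Kb)
    (ik : Fin (mk N (mu0 N)) × Fin (mk N (mu0 N))) :
    nrm N v (mu0 N) (secx N x ik) ≤ kap v 2 * supn v x := by
  classical
  have h1 : crd N (mu0 N) (secx N x ik) =
      x ik.1 • (Pi.single ik.2 1 : Fin (mk N (mu0 N)) → Kb) +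
        (-x ik.2) • (Pi.single ik.1 1 : Fin (mk N (mu0 N)) → Kb) := by
    rw [secx, sub_eq_add_neg, ← neg_smul,
      crd_add (Submodule.smul_mem _ _ (bas_mem _ _)) (Submodule.smul_mem _ _ (bas_mem _ _)),
      crd_smul, crd_smul, crd_bas, crd_bas]
  have h2 : ∀ (a : Kb) (i : Fin (mk N (mu0 N))), absv v a ≤ supn v x →
      supn v (a • (Pi.single i 1 : Fin (mk N (mu0 N)) → Kb)) ≤ supn v x := by
    intro a i ha
    rw [supn_smul, ← crd_bas, show supn v (crd N (mu0 N) (bas N (mu0 N) i : FN N)) = 1 from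
      nrm_bas v _ i, mul_one]
    exact ha
  rw [nrm, h1]
  refine (supn_add_le v _ _).trans (mul_le_mul_of_nonneg_left (max_le ?_ ?_) ?_)
  · exact h2 _ _ (absv_le_supn v x _)
  · exact h2 _ _ (by rw [AbsoluteValue.map_neg]; exact absv_le_supn v x _)
  · exact ((CF.ofNat 2).pos v).le

theorem prod_secx_mul_mem (d k0 : ℕ) (x : Fin d → Fin (mk N (mu0 N)) → Kb)
    (ik : Fin d → Fin (mk N (mu0 N)) × Fin (mk N (mu0 N))) {g : FN N} (hg : g ∈ Lk N k0) :
    (∏ j, secx N (x j) (ik j)) * g ∈ Lk N (d * mu0 N + k0) := by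
  induction d with
  | zero => simpa using hg
  | succ d ih =>
    rw [Fin.prod_univ_succ, mul_assoc,
      show (d + 1) * mu0 N + k0 = mu0 N + (d * mu0 N + k0) by ring]
    exact mul_mem_Lk (secx_mem _ _) (ih _ _)

theorem exists_CF_prod_secx (d k0 : ℕ) : ∃ c : CF, ∀ v,
    ∀ (x : Fin d → Fin (mk N (mu0 N)) → Kb)
      (ik : Fin d → Fin (mk N (mu0 N)) × Fin (mk N (mu0 N))), ∀ g ∈ Lk N k0,
      nrm N v (d * mu0 N + k0) ((∏ j, secx N (x j) (ik j)) * g) ≤
        c v * ((∏ j, supn v (x j)) * nrm N v k0 g) := by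
  induction d with
  | zero =>
    refine ⟨1, fun v x ik g _ => ?_⟩
    simp
  | succ d ih =>
    obtain ⟨c, hc⟩ := ih
    obtain ⟨e, he⟩ := U0_mul (N := N) (mu0 N) (d * mu0 N + k0)
    refine ⟨e * (CF.ofNat 2 * c), fun v x ik g hg => ?_⟩
    rw [Fin.prod_univ_succ, Fin.prod_univ_succ, mul_assoc,
      show (d + 1) * mu0 N + k0 = mu0 N + (d * mu0 N + k0) by ring]
    have h1 := he v _ (secx_mem (x 0) (ik 0)) _
      (prod_secx_mul_mem d k0 (fun j => x j.succ) (fun j => ik j.succ) hg)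
    have h2 := hc v (fun j => x j.succ) (fun j => ik j.succ) g hg
    have h3 := nrm_secx_le v (x 0) (ik 0)
    refine h1.trans ?_
    rw [CF.mul_apply, CF.mul_apply, mul_assoc]
    refine mul_le_mul_of_nonneg_left ?_ (e.pos v).le
    calc nrm N v (mu0 N) (secx N (x 0) (ik 0)) *
          nrm N v (d * mu0 N + k0) ((∏ j : Fin d, secx N (x j.succ) (ik j.succ)) * g)
        ≤ (kap v 2 * supn v (x 0)) *
          (c v * ((∏ j : Fin d, supn v (x j.succ)) * nrm N v k0 g)) :=
          mul_le_mul h3 h2 (nrm_nonneg _ _ _)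
            (mul_nonneg ((CF.ofNat 2).pos v).le (supn_nonneg _ _))
      _ = (CF.ofNat 2) v * c v *
          (supn v (x 0) * (∏ j : Fin d, supn v (x j.succ)) * nrm N v k0 g) := by
          show _ = kap v 2 * c v * _
          ring

end U0

end Fermat.Agent.S17
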