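import Fermat.Agent.S17.Curve.U0

/-! # S17 / Part U1, U2 : no zero divisors, wedge norm of `f * L_k'` -/

set_option autoImplicit false

open AlgebraicCurve ModularCurve IntermediateField

namespace Fermat.Agent.S17

open FF U0

variable {N : ℕ} [NeZero N]

namespace U12

/-- the section with coordinates `x` -/
noncomputable def ofCrd (k : ℕ) (x : Fin (mk N k) → Kb) : FN N := ∑ i, x i • (bas N k i : FN N)

theorem ofCrd_mem (k : ℕ) (x : Fin (mk N k) → Kb) : ofCrd k x ∈ Lk N k :=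
  Submodule.sum_mem _ fun i _ => Submodule.smul_mem _ _ (bas_mem k i)

theorem crd_ofCrd (k : ℕ) (x : Fin (mk N k) → Kb) : crd N k (ofCrd k x) = x := crd_sum k x

theorem ofCrd_ne_zero {k : ℕ} {x : Fin (mk N k) → Kb} (hx : x ≠ 0) : ofCrd k x ≠ 0 := by
  intro h
  apply hx
  rw [← crd_ofCrd k x, h, crd_zero]

theorem nrm_zero (v : PlQ) (k : ℕ) : nrm N v k 0 = 0 := by
  rw [nrm, crd_zero]
  exact (supn_eq_zero_iff v _).mpr rfl

theorem mk_pos (k : ℕ) : 0 < mk N k := by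
  by_contra h
  have h0 : mk N k = 0 := by omega
  have : IsEmpty (Fin (mk N k)) := by rw [h0]; infer_instance
  have h1 : crd N k (1 : FN N) = 0 := Subsingleton.elim _ _
  exact one_ne_zero ((crd_eq_zero_iff (one_mem_Lk k)).mp h1)

/-- the bilinear form in coordinates -/
noncomputable def bil (N : ℕ) [NeZero N] (k k' : ℕ) (l : Fin (mk N (k + k')))
    (x : Fin (mk N k) ⊕ Fin (mk N k') → Kb) : Kb :=
  ∑ i, ∑ j, sc N k k' l i j * (x (Sum.inl i) * x (Sum.inr j))

theorem isPoly_bil (k k' : ℕ) (l : Fin (mk N (k + k'))) : IsPoly (bil N k k' l) :=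
  IsPoly.sum _ fun _ _ => IsPoly.sum _ fun _ _ =>
    (IsPoly.const _).mul ((IsPoly.coord _).mul (IsPoly.coord _))

/-- the rows `crd (f_x * b'_j)` -/
noncomputable def rows (N : ℕ) [NeZero N] (k k' : ℕ) (x : Fin (mk N k) → Kb) (j : Fin (mk N k'))
    (l : Fin (mk N (k + k'))) : Kb :=
  ∑ i, sc N k k' l i j * x i

theorem crd_mul_bas {k : ℕ} (k' : ℕ) {f : FN N} (hf : f ∈ Lk N k) (j : Fin (mk N k')) :
    crd N (k + k') (f * (bas N k' j : FN N)) = rows N k k' (crd N k f) j := by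
  conv_lhs => rw [eq_sum_crd hf, Finset.sum_mul]
  rw [crd_finset_sum _ _ _ fun i _ => by
    rw [smul_mul_assoc]; exact Submodule.smul_mem _ _ (bas_mul_mem k k' i j)]
  funext l
  rw [Finset.sum_apply]
  refine Finset.sum_congr rfl fun i _ => ?_
  rw [smul_mul_assoc, crd_smul, Pi.smul_apply, smul_eq_mul, mul_comm]
  rfl

theorem rows_smul (k k' : ℕ) (a : Kb) (x : Fin (mk N k) → Kb) :
    rows N k k' (a • x) = fun j l => a * rows N k k' x j l := by
  funext j l
  rw [rows, rows, Finset.mul_sum]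
  refine Finset.sum_congr rfl fun i _ => ?_
  rw [Pi.smul_apply, smul_eq_mul]
  ring

theorem wedgen_rows_smul (v : PlQ) (k k' : ℕ) (a : Kb) (x : Fin (mk N k) → Kb) :
    wedgen v (rows N k k' (a • x)) = absv v a ^ mk N k' * wedgen v (rows N k k' x) := by
  rw [Wedge.wedgen_def, Wedge.wedgen_def, ← map_pow, ← supn_smul]
  congr 1
  funext φ
  rw [Pi.smul_apply, smul_eq_mul, Wedge.minor, Wedge.minor, rows_smul]
  have : (Matrix.of fun a_1 b => a * rows N k k' x a_1 (φ b)) =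
      a • (Matrix.of fun a_1 b => rows N k k' x a_1 (φ b)) := by
    ext p q
    simp
  rw [this, Matrix.det_smul, Fintype.card_fin]

theorem isPoly_minor (k k' : ℕ) (φ : Fin (mk N k') → Fin (mk N (k + k'))) :
    IsPoly fun x : Fin (mk N k) → Kb => Wedge.minor (rows N k k' x) φ := by
  unfold Wedge.minor
  refine IsPoly.det (M := fun x => Matrix.of fun a b => rows N k k' x a (φ b)) fun p q => ?_
  show IsPoly fun x : Fin (mk N k) → Kb => ∑ i, sc N k k' (φ q) i p * x i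
  exact IsPoly.sum _ fun i _ => (IsPoly.const _).mul (IsPoly.coord _)

theorem linearIndependent_rows (k k' : ℕ) {x : Fin (mk N k) → Kb} (hx : x ≠ 0) :
    LinearIndependent Kb (rows N k k' x) := by
  rw [Fintype.linearIndependent_iff]
  intro c hc
  have hf := ofCrd_mem k x
  have h1 : ∀ j, rows N k k' x j = crd N (k + k') (ofCrd k x * (bas N k' j : FN N)) := by
    intro j
    rw [crd_mul_bas k' hf, crd_ofCrd]
  have h2 : crd N (k + k') (ofCrd k x * ofCrd k' c) = 0 := by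
    rw [← hc, ofCrd, ofCrd, Finset.mul_sum, crd_finset_sum _ _ _ fun j _ => by
      rw [mul_smul_comm]; exact Submodule.smul_mem _ _ (mul_mem_Lk hf (bas_mem k' j))]
    refine Finset.sum_congr rfl fun j _ => ?_
    rw [mul_smul_comm, crd_smul, h1]
    rfl
  have h3 := (crd_eq_zero_iff (mul_mem_Lk hf (ofCrd_mem k' c))).mp h2
  have h4 : ofCrd k' c = 0 := (mul_eq_zero.mp h3).resolve_left (ofCrd_ne_zero hx)
  intro j
  have h5 := crd_ofCrd k' c
  rw [h4, crd_zero] at h5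
  exact (congrFun h5 j).symm

end U12

open U12

/-! ### U1 : no zero divisors -/

theorem U1 (k k' : ℕ) : ∃ c : CF, ∀ v, ∀ f ∈ Lk N k, ∀ g ∈ Lk N k',
    nrm N v k f * nrm N v k' g ≤ c v * nrm N v (k + k') (f * g) := by
  classical
  let blk : Fin (mk N k) ⊕ Fin (mk N k') → Fin 2 := Sum.elim (fun _ => 0) (fun _ => 1)
  obtain ⟨c, hc⟩ := exists_CF_le_supn blk IsZClosed.univ (bil N k k') (isPoly_bil k k') (by
    intro x _ hx
    obtain ⟨s0, hs0, hx0⟩ := hx 0
    obtain ⟨s1, hs1, hx1⟩ := hx 1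
    have hf0 : (fun i => x (Sum.inl i)) ≠ 0 := by
      rcases s0 with i | j
      · exact fun h => hx0 (congrFun h i)
      · simp [blk] at hs0
    have hg0 : (fun j => x (Sum.inr j)) ≠ 0 := by
      rcases s1 with i | j
      · simp [blk] at hs1
      · exact fun h => hx1 (congrFun h j)
    have hfg : ofCrd k (fun i => x (Sum.inl i)) * ofCrd k' (fun j => x (Sum.inr j)) ≠ 0 :=
      mul_ne_zero (ofCrd_ne_zero hf0) (ofCrd_ne_zero hg0)
    have h1 : crd N (k + k')
        (ofCrd k (fun i => x (Sum.inl i)) * ofCrd k' (fun j => x (Sum.inr j))) ≠ 0 := fun h =>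
      hfg ((crd_eq_zero_iff (mul_mem_Lk (ofCrd_mem _ _) (ofCrd_mem _ _))).mp h)
    obtain ⟨l, hl⟩ := Function.ne_iff.mp h1
    refine ⟨l, ?_⟩
    rw [crd_mul (ofCrd_mem _ _) (ofCrd_mem _ _), crd_ofCrd, crd_ofCrd] at hl
    exact hl)
  refine ⟨c, fun v f hf g hg => ?_⟩
  by_cases hf0 : f = 0
  · rw [hf0, nrm_zero, zero_mul]
    exact mul_nonneg (c.pos v).le (nrm_nonneg _ _ _)
  by_cases hg0 : g = 0
  · rw [hg0, nrm_zero, mul_zero]
    exact mul_nonneg (c.pos v).le (nrm_nonneg _ _ _)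
  have hcf : crd N k f ≠ 0 := fun h => hf0 ((crd_eq_zero_iff hf).mp h)
  have hcg : crd N k' g ≠ 0 := fun h => hg0 ((crd_eq_zero_iff hg).mp h)
  obtain ⟨a, ha0, ha, ha1⟩ := exists_smul_supn_eq_one v hcf
  obtain ⟨b, hb0, hb, hb1⟩ := exists_smul_supn_eq_one v hcg
  have : Nonempty (Fin (mk N k)) := ⟨⟨0, mk_pos k⟩⟩
  have : Nonempty (Fin (mk N k')) := ⟨⟨0, mk_pos k'⟩⟩
  obtain ⟨i0, hi0⟩ := exists_absv_eq_supn v (a⁻¹ • crd N k f)
  obtain ⟨j0, hj0⟩ := exists_absv_eq_supn v (b⁻¹ • crd N k' g)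
  have hn : BlocksNormed blk v (Sum.elim (a⁻¹ • crd N k f) (b⁻¹ • crd N k' g)) := by
    refine ⟨?_, ?_⟩
    · rintro (i | j)
      · exact (absv_le_supn v (a⁻¹ • crd N k f) i).trans ha1.le
      · exact (absv_le_supn v (b⁻¹ • crd N k' g) j).trans hb1.le
    · intro j
      fin_cases j
      · exact ⟨Sum.inl i0, rfl, hi0.trans ha1⟩
      · exact ⟨Sum.inr j0, rfl, hj0.trans hb1⟩
  have h1 := hc v _ (Set.mem_univ _) hn
  have h2 : (fun l => bil N k k' l (Sum.elim (a⁻¹ • crd N k f) (b⁻¹ • crd N k' g))) =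
      (a⁻¹ * b⁻¹) • crd N (k + k') (f * g) := by
    funext l
    rw [Pi.smul_apply, smul_eq_mul, crd_mul hf hg, bil, Finset.mul_sum]
    refine Finset.sum_congr rfl fun i _ => ?_
    rw [Finset.mul_sum]
    refine Finset.sum_congr rfl fun j _ => ?_
    simp only [Sum.elim_inl, Sum.elim_inr, Pi.smul_apply, smul_eq_mul]
    ring
  rw [h2, supn_smul, map_mul, map_inv₀, map_inv₀, ha, hb] at h1
  have hpa : 0 < supn v (crd N k f) := supn_pos v hcf
  have hpb : 0 < supn v (crd N k' g) := supn_pos v hcg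
  show supn v (crd N k f) * supn v (crd N k' g) ≤ c v * supn v (crd N (k + k') (f * g))
  have h3 : c v * ((supn v (crd N k f))⁻¹ * (supn v (crd N k' g))⁻¹ *
      supn v (crd N (k + k') (f * g))) =
      c v * supn v (crd N (k + k') (f * g)) / (supn v (crd N k f) * supn v (crd N k' g)) := by
    field_simp
  rw [h3, le_div_iff₀ (mul_pos hpa hpb), one_mul] at h1
  exact h1

/-! ### U2 : wedge norm of `f * L_k'` -/

theorem U2 (k k' : ℕ) : ∃ c : CF, ∀ v, ∀ f ∈ Lk N k,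
    nrm N v k f ^ (mk N k') ≤
        c v * wedgen v (fun j : Fin (mk N k') => crd N (k + k') (f * (bas N k' j : FN N))) ∧
    wedgen v (fun j : Fin (mk N k') => crd N (k + k') (f * (bas N k' j : FN N))) ≤
        c v * nrm N v k f ^ (mk N k') := by
  classical
  obtain ⟨c, hc⟩ := exists_CF_le_supn (fun _ : Fin (mk N k) => ()) IsZClosed.univ
    (fun (φ : Fin (mk N k') → Fin (mk N (k + k'))) (x : Fin (mk N k) → Kb) =>
      Wedge.minor (rows N k k' x) φ) (isPoly_minor k k') (by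
    intro x _ hx
    obtain ⟨s, -, hs⟩ := hx ()
    have hx0 : x ≠ 0 := fun h => hs (congrFun h s)
    exact (Wedge.exists_minor_ne_zero_iff _).mpr (linearIndependent_rows k k' hx0))
  have hd : ∀ φ : Fin (mk N k') → Fin (mk N (k + k')), ∃ d : CF, ∀ v, ∀ x : Fin (mk N k) → Kb,
      (∀ s, absv v (x s) ≤ 1) → absv v (Wedge.minor (rows N k k' x) φ) ≤ d v := by
    intro φ
    obtain ⟨p, hp⟩ := isPoly_minor (N := N) k k' φ
    obtain ⟨d, hd⟩ := exists_CF_eval_le p
    exact ⟨d, fun v x hx => (le_of_eq (congrArg (absv v) (hp x))).trans (hd v x hx)⟩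
  choose d hd using hd
  obtain ⟨D, hD⟩ := ConstRank.exists_CF_ge_all Finset.univ d
  refine ⟨c * D, fun v f hf => ?_⟩
  have hrow : (fun j : Fin (mk N k') => crd N (k + k') (f * (bas N k' j : FN N))) =
      rows N k k' (crd N k f) := funext fun j => crd_mul_bas k' hf j
  rw [hrow]
  by_cases hf0 : f = 0
  · have h0 : crd N k f = (0 : Kb) • (0 : Fin (mk N k) → Kb) := by rw [hf0, crd_zero, zero_smul]
    rw [h0, wedgen_rows_smul, hf0, nrm_zero, map_zero, zero_pow (mk_pos k').ne']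
    simp
  have hcf : crd N k f ≠ 0 := fun h => hf0 ((crd_eq_zero_iff hf).mp h)
  obtain ⟨a, ha0, ha, ha1⟩ := exists_smul_supn_eq_one v hcf
  have : Nonempty (Fin (mk N k)) := ⟨⟨0, mk_pos k⟩⟩
  obtain ⟨i0, hi0⟩ := exists_absv_eq_supn v (a⁻¹ • crd N k f)
  have hle : ∀ s, absv v ((a⁻¹ • crd N k f) s) ≤ 1 := fun s =>
    (absv_le_supn v (a⁻¹ • crd N k f) s).trans ha1.le
  have hn : BlocksNormed (fun _ : Fin (mk N k) => ()) v (a⁻¹ • crd N k f) :=
    ⟨hle, fun _ => ⟨i0, rfl, hi0.trans ha1⟩⟩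
  have h1 : 1 ≤ c v * wedgen v (rows N k k' (a⁻¹ • crd N k f)) := hc v _ (Set.mem_univ _) hn
  have h2 : wedgen v (rows N k k' (a⁻¹ • crd N k f)) ≤ D v := by
    rw [Wedge.wedgen_def, supn_le_iff v _ (D.pos v).le]
    intro φ
    exact (hd φ v _ hle).trans (hD φ (Finset.mem_univ φ) v)
  have h3 : crd N k f = a • (a⁻¹ • crd N k f) := by rw [smul_smul, mul_inv_cancel₀ ha0, one_smul]
  have hw : wedgen v (rows N k k' (crd N k f)) =
      nrm N v k f ^ mk N k' * wedgen v (rows N k k' (a⁻¹ • crd N k f)) := by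
    conv_lhs => rw [h3]
    rw [wedgen_rows_smul, ha]
    rfl
  have hp : 0 ≤ nrm N v k f ^ mk N k' := pow_nonneg (nrm_nonneg _ _ _) _
  rw [hw, CF.mul_apply]
  constructor
  · calc nrm N v k f ^ mk N k' = nrm N v k f ^ mk N k' * 1 := (mul_one _).symm
      _ ≤ nrm N v k f ^ mk N k' * (c v * wedgen v (rows N k k' (a⁻¹ • crd N k f))) :=
        mul_le_mul_of_nonneg_left h1 hp
      _ = c v * (nrm N v k f ^ mk N k' * wedgen v (rows N k k' (a⁻¹ • crd N k f))) := by ring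
      _ ≤ c v * D v * (nrm N v k f ^ mk N k' * wedgen v (rows N k k' (a⁻¹ • crd N k f))) :=
        mul_le_mul_of_nonneg_right (le_mul_of_one_le_right (c.pos v).le (D.one_le v))
          (mul_nonneg hp (wedgen_nonneg _ _))
  · calc nrm N v k f ^ mk N k' * wedgen v (rows N k k' (a⁻¹ • crd N k f))
        ≤ nrm N v k f ^ mk N k' * D v := mul_le_mul_of_nonneg_left h2 hp
      _ = D v * nrm N v k f ^ mk N k' := mul_comm _ _
      _ ≤ c v * D v * nrm N v k f ^ mk N k' :=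
        mul_le_mul_of_nonneg_right (le_mul_of_one_le_left (D.pos v).le (c.one_le v)) hp

end Fermat.Agent.S17
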