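import Fermat.Agent.S17.Curve.Unif

/-! # S17 / U4 : proof of the key uniform estimate -/

set_option autoImplicit false
set_option linter.unusedSectionVars false

open AlgebraicCurve ModularCurve IntermediateField
open scoped Pointwise

namespace Fermat.Agent.S17

open FF

variable {N : ℕ} [NeZero N]

namespace U4aux

theorem crd_zero (k : ℕ) : crd N k (0 : FN N) = 0 := by
  have := crd_smul (N := N) k 0 0
  simpa using this

theorem crd_finset_sum {ι : Type*} (k : ℕ) (s : Finset ι) (f : ι → FN N)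
    (hf : ∀ i ∈ s, f i ∈ Lk N k) : crd N k (∑ i ∈ s, f i) = ∑ i ∈ s, crd N k (f i) := by
  classical
  induction s using Finset.induction_on with
  | empty => simpa using crd_zero k
  | insert a s ha ih =>
    rw [Finset.sum_insert ha, Finset.sum_insert ha,
      crd_add (hf a (Finset.mem_insert_self a s))
        (Submodule.sum_mem _ fun i hi => hf i (Finset.mem_insert_of_mem hi)),
      ih fun i hi => hf i (Finset.mem_insert_of_mem hi)]

/-- a family of sections of level `k` depending polynomially on parameters -/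
def PolyIn {σ : Type*} (k : ℕ) (g : (σ → Kb) → FN N) : Prop :=
  (∀ x, g x ∈ Lk N k) ∧ ∀ i, IsPoly fun x => crd N k (g x) i

theorem PolyIn.const {σ : Type*} {k : ℕ} {f : FN N} (hf : f ∈ Lk N k) :
    PolyIn (σ := σ) k (fun _ => f) :=
  ⟨fun _ => hf, fun _ => IsPoly.const _⟩

theorem PolyIn.congr {σ : Type*} {k k' : ℕ} (h : k = k') {g : (σ → Kb) → FN N}
    (hg : PolyIn k g) : PolyIn k' g := h ▸ hg

theorem PolyIn.mul {σ : Type*} {k k' : ℕ} {g g' : (σ → Kb) → FN N} (hg : PolyIn k g)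
    (hg' : PolyIn k' g') : PolyIn (k + k') (fun x => g x * g' x) := by
  refine ⟨fun x => mul_mem_Lk (hg.1 x) (hg'.1 x), fun l => ?_⟩
  have key : ∀ x, crd N (k + k') (g x * g' x) l =
      ∑ i, ∑ j, (crd N k (g x) i * crd N k' (g' x) j) *
        crd N (k + k') ((bas N k i : FN N) * (bas N k' j : FN N)) l := by
    intro x
    have h1 : g x * g' x = ∑ i, ∑ j, (crd N k (g x) i * crd N k' (g' x) j) •
        ((bas N k i : FN N) * (bas N k' j : FN N)) := by
      conv_lhs => rw [eq_sum_crd (hg.1 x), eq_sum_crd (hg'.1 x)]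
      rw [Finset.sum_mul_sum]
      refine Finset.sum_congr rfl fun i _ => Finset.sum_congr rfl fun j _ => ?_
      rw [smul_mul_smul_comm]
    have hmem : ∀ i j, (crd N k (g x) i * crd N k' (g' x) j) •
        ((bas N k i : FN N) * (bas N k' j : FN N)) ∈ Lk N (k + k') := fun i j =>
      Submodule.smul_mem _ _ (mul_mem_Lk (bas N k i).2 (bas N k' j).2)
    rw [h1, crd_finset_sum _ _ _ fun i _ => Submodule.sum_mem _ fun j _ => hmem i j,
      Finset.sum_apply]
    refine Finset.sum_congr rfl fun i _ => ?_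
    rw [crd_finset_sum _ _ _ fun j _ => hmem i j, Finset.sum_apply]
    refine Finset.sum_congr rfl fun j _ => ?_
    rw [crd_smul, Pi.smul_apply, smul_eq_mul]
  simp only [key]
  exact IsPoly.sum _ fun i _ => IsPoly.sum _ fun j _ =>
    ((hg.2 i).mul (hg'.2 j)).mul (IsPoly.const _)

theorem PolyIn.one {σ : Type*} : PolyIn (N := N) (σ := σ) 0 (fun _ => 1) :=
  PolyIn.const (one_mem_Lk 0)

theorem PolyIn.prod {σ ι : Type*} {k : ℕ} (s : Finset ι) {g : ι → (σ → Kb) → FN N}
    (hg : ∀ j ∈ s, PolyIn k (g j)) : PolyIn (s.card * k) (fun x => ∏ j ∈ s, g j x) := by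
  classical
  induction s using Finset.induction_on with
  | empty => simpa using PolyIn.one
  | insert a s ha ih =>
    have h1 := (hg a (Finset.mem_insert_self a s)).mul
      (ih fun j hj => hg j (Finset.mem_insert_of_mem hj))
    simp only [Finset.prod_insert ha]
    refine h1.congr ?_
    rw [Finset.card_insert_of_notMem ha]
    ring

theorem polyIn_secx {d : ℕ} (j : Fin d) (ik : Fin (mk N (mu0 N)) × Fin (mk N (mu0 N))) :
    PolyIn (σ := Fin d × Fin (mk N (mu0 N))) (mu0 N) (fun x => secx N (fun i => x (j, i)) ik) := by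
  refine ⟨fun x => secx_mem _ _, fun l => ?_⟩
  have key : ∀ x : Fin d × Fin (mk N (mu0 N)) → Kb, crd N (mu0 N) (secx N (fun i => x (j, i)) ik) l =
      x (j, ik.1) * crd N (mu0 N) (bas N (mu0 N) ik.2 : FN N) l +
        (- x (j, ik.2)) * crd N (mu0 N) (bas N (mu0 N) ik.1 : FN N) l := by
    intro x
    have h1 : secx N (fun i => x (j, i)) ik = x (j, ik.1) • (bas N (mu0 N) ik.2 : FN N) +
        (- x (j, ik.2)) • (bas N (mu0 N) ik.1 : FN N) := by
      rw [secx, neg_smul, sub_eq_add_neg]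
    rw [h1, crd_add (Submodule.smul_mem _ _ (bas N (mu0 N) ik.2).2)
      (Submodule.smul_mem _ _ (bas N (mu0 N) ik.1).2), crd_smul, crd_smul]
    rfl
  simp only [key]
  exact ((IsPoly.coord _).mul (IsPoly.const _)).add ((IsPoly.coord _).neg.mul (IsPoly.const _))

/-- the vector of blocks -/
def blocks {d : ℕ} (x : Fin d × Fin (mk N (mu0 N)) → Kb) : Fin d → Fin (mk N (mu0 N)) → Kb :=
  fun j i => x (j, i)

theorem polyIn_famx (d k0 : ℕ) (γ : Gam N d k0) :
    PolyIn (σ := Fin d × Fin (mk N (mu0 N))) (d * mu0 N + k0)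
      (fun x => famx d k0 (blocks x) γ) := by
  have h1 := PolyIn.prod (N := N) (σ := Fin d × Fin (mk N (mu0 N))) (k := mu0 N)
    (Finset.univ : Finset (Fin d)) (g := fun j x => secx N (fun i => x (j, i)) (γ.1 j))
    (fun j _ => polyIn_secx j (γ.1 j))
  have h2 := h1.mul (PolyIn.const (σ := Fin d × Fin (mk N (mu0 N))) (bas N k0 γ.2).2)
  rw [Finset.card_univ, Fintype.card_fin] at h2
  exact h2

/-- the matrix of coordinates of the spanning family -/
noncomputable def MM (d k0 : ℕ) (x : Fin d × Fin (mk N (mu0 N)) → Kb) :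
    Matrix (Fin (mk N (d * mu0 N + k0))) (Gam N d k0) Kb :=
  fun i γ => crd N (d * mu0 N + k0) (famx d k0 (blocks x) γ) i

/-- the synthesis map `a ↦ ∑ a_i b_i` -/
noncomputable def syn (k : ℕ) : (Fin (mk N k) → Kb) →ₗ[Kb] FN N :=
  Fintype.linearCombination Kb (fun i => (bas N k i : FN N))

theorem syn_apply (k : ℕ) (a : Fin (mk N k) → Kb) : syn k a = ∑ i, a i • (bas N k i : FN N) := by
  simp [syn, Fintype.linearCombination_apply]

theorem syn_crd {k : ℕ} {f : FN N} (hf : f ∈ Lk N k) : syn k (crd N k f) = f := by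
  rw [syn_apply]
  exact (eq_sum_crd hf).symm

theorem syn_injective (k : ℕ) : Function.Injective (syn (N := N) k) := by
  intro a a' h
  rw [syn_apply, syn_apply] at h
  rw [← crd_sum k a, h, crd_sum]

theorem famx_mem (d k0 : ℕ) (x : Fin d × Fin (mk N (mu0 N)) → Kb) (γ : Gam N d k0) :
    famx d k0 (blocks x) γ ∈ Lk N (d * mu0 N + k0) := (polyIn_famx d k0 γ).1 x

theorem syn_mulVec (d k0 : ℕ) (x : Fin d × Fin (mk N (mu0 N)) → Kb) (a : Gam N d k0 → Kb) :
    syn (d * mu0 N + k0) ((MM d k0 x).mulVec a) = ∑ γ, a γ • famx d k0 (blocks x) γ := by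
  have h1 : (MM d k0 x).mulVec a = ∑ γ, a γ • crd N (d * mu0 N + k0) (famx d k0 (blocks x) γ) := by
    ext i
    simp only [Matrix.mulVec, dotProduct, MM, Finset.sum_apply, Pi.smul_apply, smul_eq_mul]
    exact Finset.sum_congr rfl fun γ _ => mul_comm _ _
  rw [h1, map_sum]
  refine Finset.sum_congr rfl fun γ _ => ?_
  rw [map_smul, syn_crd (famx_mem d k0 x γ)]

theorem rank_MM (d k0 : ℕ) (x : Fin d × Fin (mk N (mu0 N)) → Kb) :
    (MM d k0 x).rank =
      Module.finrank Kb (Submodule.span Kb (Set.range (famx d k0 (blocks x)))) := by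
  rw [Matrix.rank_eq_finrank_span_cols]
  have h1 : Submodule.span Kb (Set.range (famx d k0 (blocks x))) =
      (Submodule.span Kb (Set.range (MM d k0 x).col)).map (syn (d * mu0 N + k0)) := by
    rw [Submodule.map_span, ← Set.range_comp]
    congr 2
    funext γ
    exact (syn_crd (famx_mem d k0 x γ)).symm
  rw [h1]
  exact (Submodule.equivMapOfInjective _ (syn_injective _) _).finrank_eq

theorem secx_smul (c : Kb) (y : Fin (mk N (mu0 N)) → Kb) (ik) :
    secx N (c • y) ik = c • secx N y ik := by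
  simp only [secx, Pi.smul_apply, smul_eq_mul, mul_smul, smul_sub]

theorem famx_smul (d k0 : ℕ) (c : Fin d → Kb) (y : Fin d → Fin (mk N (mu0 N)) → Kb)
    (γ : Gam N d k0) : famx d k0 (fun j => c j • y j) γ = (∏ j, c j) • famx d k0 y γ := by
  simp only [famx, secx_smul]
  rw [Finset.prod_smul, smul_mul_assoc]

theorem span_famx_smul (d k0 : ℕ) (c : Fin d → Kb) (hc : ∀ j, c j ≠ 0)
    (y : Fin d → Fin (mk N (mu0 N)) → Kb) :
    Submodule.span Kb (Set.range (famx d k0 (fun j => c j • y j))) =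
      Submodule.span Kb (Set.range (famx d k0 y)) := by
  have h1 : Set.range (famx d k0 (fun j => c j • y j)) = (∏ j, c j) • Set.range (famx d k0 y) := by
    rw [Set.smul_set_range]
    congr 1
    funext γ
    exact famx_smul d k0 c y γ
  rw [h1]
  exact Submodule.span_smul_eq_of_isUnit _ _
    (isUnit_iff_ne_zero.mpr (Finset.prod_ne_zero_iff.mpr fun j _ => hc j))

/-- the constant rank -/
noncomputable def rho (N : ℕ) [NeZero N] (d k0 : ℕ) : ℕ :=
  (((d * mu0 N + k0 : ℕ) : ℤ) - d + 1 - genus Kb (FN N)).toNat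

theorem finrank_LSp (d : ℕ) {k0 : ℕ} (hk0 : rc Kb (FN N) + mu0 N ≤ k0) (P : Fin d → Pl N) :
    Module.finrank Kb (LSp (koo N (d * mu0 N + k0) - tdiv P)) = rho N d k0 := by
  have hdeg : Divisor.degree (koo N (d * mu0 N + k0) - tdiv P) = ((d * mu0 N + k0 : ℕ) : ℤ) - d := by
    rw [map_sub, degree_koo, degree_tdiv]
  have hmu : 1 ≤ mu0 N := by unfold mu0; omega
  have hd : d ≤ d * mu0 N := Nat.le_mul_of_pos_right d hmu
  have hrc : rc Kb (FN N) ≤ Divisor.degree (koo N (d * mu0 N + k0) - tdiv P) := by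
    rw [hdeg]
    push_cast
    have : (d : ℤ) ≤ d * mu0 N := by exact_mod_cast hd
    have h0 : (0 : ℤ) ≤ mu0 N := Int.natCast_nonneg _
    linarith
  have h := riemann_eq hrc
  rw [hdeg] at h
  unfold rho
  rw [← h]
  rfl

/-- the closed set `Chat ^ d` -/
def ZZ (N : ℕ) [NeZero N] (d : ℕ) : Set (Fin d × Fin (mk N (mu0 N)) → Kb) :=
  {x | ∀ j, blocks x j ∈ Chat N}

theorem isZClosed_ZZ (d : ℕ) : IsZClosed (ZZ N d) := by
  have h : ZZ N d = ⋂ j, (fun x => blocks x j) ⁻¹' Chat N := by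
    ext x
    simp [ZZ]
  rw [h]
  exact IsZClosed.iInter fun j => isZClosed_Chat.preimage fun t => IsPoly.coord (j, t)

theorem rank_eq (d : ℕ) {k0 : ℕ} (hk0 : rc Kb (FN N) + mu0 N ≤ k0)
    (x : Fin d × Fin (mk N (mu0 N)) → Kb) (hx : x ∈ ZZ N d)
    (hne : BlocksNe (Prod.fst : Fin d × Fin (mk N (mu0 N)) → Fin d) x) :
    (MM d k0 x).rank = rho N d k0 := by
  have h1 : ∀ j, ∃ (P : Pl N) (c : Kb), c ≠ 0 ∧ blocks x j = c • pt N (mu0 N) P := by
    intro j
    refine exists_of_mem_Chat (hx j) ?_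
    obtain ⟨s, hs, hs0⟩ := hne j
    intro h0
    apply hs0
    have := congrFun h0 s.2
    subst hs
    exact this
  choose P c hc hP using h1
  rw [rank_MM]
  have h2 : blocks x = fun j => c j • pt N (mu0 N) (P j) := funext hP
  rw [h2, span_famx_smul d k0 c hc, ← finrank_LSp d hk0 P, ← span_fam d hk0 P]

theorem tdiv_nonneg {d : ℕ} (P : Fin d → Pl N) : 0 ≤ tdiv P :=
  Finset.sum_nonneg fun _ _ => Finsupp.single_nonneg.mpr zero_le_one

theorem main (d : ℕ) {k0 : ℕ} (hk0 : rc Kb (FN N) + mu0 N ≤ k0) : ∃ c : CF, ∀ v, ∀ P : Fin d → Pl N,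
    ∀ t ∈ LSp (koo N (d * mu0 N + k0) - tdiv P), ∃ a : Gam N d k0 → Kb,
      t = ∑ γ, a γ • fam d k0 P γ ∧
      supn v a * ∏ j, ptn N v (mu0 N) (P j) ≤ c v * nrm N v (d * mu0 N + k0) t := by
  obtain ⟨c, hc⟩ := const_rank_solve (Prod.fst : Fin d × Fin (mk N (mu0 N)) → Fin d)
    (isZClosed_ZZ d) (MM d k0) (fun i γ => (polyIn_famx d k0 γ).2 i) (rho N d k0)
    (fun x hx hne => rank_eq d hk0 x hx hne)
  refine ⟨c, fun v P t ht => ?_⟩
  have hmu : rc Kb (FN N) + 1 ≤ (mu0 N : ℤ) := by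
    have := rc_add_two_le_mu0 (N := N)
    linarith
  have h1 : ∀ j, ∃ a : Kb, a ≠ 0 ∧ absv v a = supn v (pt N (mu0 N) (P j)) ∧
      supn v (a⁻¹ • pt N (mu0 N) (P j)) = 1 :=
    fun j => exists_smul_supn_eq_one v (pt_ne_zero hmu (P j))
  choose e he0 he1 he2 using h1
  set x : Fin d × Fin (mk N (mu0 N)) → Kb := fun s => (e s.1)⁻¹ * pt N (mu0 N) (P s.1) s.2 with hx
  have hbl : blocks x = fun j => (e j)⁻¹ • pt N (mu0 N) (P j) := rfl
  have hxZ : x ∈ ZZ N d := fun j => by
    rw [hbl]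
    exact smul_pt_mem_Chat _ _
  have hn : BlocksNormed (Prod.fst : Fin d × Fin (mk N (mu0 N)) → Fin d) v x := by
    constructor
    · intro s
      have := absv_le_supn v ((e s.1)⁻¹ • pt N (mu0 N) (P s.1)) s.2
      rw [he2] at this
      exact this
    · intro j
      have : Nonempty (Fin (mk N (mu0 N))) := by
        by_contra hemp
        rw [not_nonempty_iff] at hemp
        exact pt_ne_zero hmu (P j) (funext fun i => hemp.elim i)
      obtain ⟨i, hi⟩ := exists_absv_eq_supn v ((e j)⁻¹ • pt N (mu0 N) (P j))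
      exact ⟨(j, i), rfl, by rw [← he2 j, ← hi]; rfl⟩
  have htK : t ∈ Lk N (d * mu0 N + k0) := LSp_mono (sub_le_self _ (tdiv_nonneg P)) ht
  have hspan : t ∈ Submodule.span Kb (Set.range (famx d k0 (blocks x))) := by
    rw [hbl, span_famx_smul d k0 _ (fun j => inv_ne_zero (he0 j)), span_fam d hk0 P]
    exact ht
  obtain ⟨a', ha'⟩ := (Submodule.mem_span_range_iff_exists_fun Kb).mp hspan
  have hrange : crd N (d * mu0 N + k0) t ∈ Set.range (MM d k0 x).mulVec :=
    ⟨a', by
      apply syn_injective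
      rw [syn_mulVec, syn_crd htK, ha']⟩
  obtain ⟨a, ha, hab⟩ := hc v x hxZ hn _ hrange
  refine ⟨(∏ j, (e j)⁻¹) • a, ?_, ?_⟩
  · have h2 := syn_mulVec d k0 x a
    rw [ha, syn_crd htK, hbl] at h2
    rw [h2]
    refine Finset.sum_congr rfl fun γ _ => ?_
    rw [famx_smul, smul_smul, Pi.smul_apply, smul_eq_mul, mul_comm]
  · rw [supn_smul, map_prod]
    have h3 : ∀ j, ptn N v (mu0 N) (P j) = absv v (e j) := fun j => (he1 j).symm
    simp only [h3]
    have h4 : (∏ j, absv v (e j)⁻¹) * ∏ j, absv v (e j) = 1 := by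
      rw [← Finset.prod_mul_distrib]
      refine Finset.prod_eq_one fun j _ => ?_
      rw [← map_mul, inv_mul_cancel₀ (he0 j), map_one]
    calc (∏ j, absv v (e j)⁻¹) * supn v a * ∏ j, absv v (e j)
        = ((∏ j, absv v (e j)⁻¹) * ∏ j, absv v (e j)) * supn v a := by ring
      _ = supn v a := by rw [h4, one_mul]
      _ ≤ _ := hab

end U4aux

/-- **U4.** -/
theorem U4 {N : ℕ} [NeZero N] (d : ℕ) {k0 : ℕ} (hk0 : FF.rc Kb (FN N) + mu0 N ≤ k0) : ∃ c : CF, ∀ v, ∀ P : Fin d → Pl N,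
    ∀ t ∈ FF.LSp (koo N (d * mu0 N + k0) - FF.tdiv P), ∃ a : Gam N d k0 → Kb,
      t = ∑ γ, a γ • fam d k0 P γ ∧
      supn v a * ∏ j, ptn N v (mu0 N) (P j) ≤ c v * nrm N v (d * mu0 N + k0) t :=
  U4aux.main d hk0

end Fermat.Agent.S17
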