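import Fermat.Agent.S17.Curve.Cone
import Fermat.Agent.S17.Curve.SpanFam
import Fermat.Agent.S17.Curve.U12

/-! # S17 / Part U : the uniform estimates U0, U1, U2 (proved in `Curve/U0`, `Curve/U12`), `U0_fam` -/

set_option autoImplicit false

open AlgebraicCurve ModularCurve IntermediateField

namespace Fermat.Agent.S17

open FF

variable {N : ℕ} [NeZero N]

/-- trivial upper bound for the members of the family -/
theorem U0_fam (d k0 : ℕ) : ∃ c : CF, ∀ v, ∀ P : Fin d → Pl N, ∀ γ : Gam N d k0,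
    nrm N v (d * mu0 N + k0) (fam d k0 P γ) ≤ c v * ∏ j, ptn N v (mu0 N) (P j) := by
  obtain ⟨c, hc⟩ := U0.exists_CF_prod_secx (N := N) d k0
  refine ⟨c, fun v P γ => ?_⟩
  have := hc v (fun j => pt N (mu0 N) (P j)) γ.1 _ (U0.bas_mem k0 γ.2)
  rw [U0.nrm_bas, mul_one] at this
  exact this

end Fermat.Agent.S17
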